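import Fermat.Agent.S33.Rat.H90

/-!
# S33/RAT-API : what the geometric layers (M1, M) use from the rational layer          key `S33/RAT-API`

Besides this file the consumers use: `ratF`, `mem_ratF`, `wG_rat`, `*_mem_ratF` (`Rat/Fun.lean`), `w_of_relIndex`, `relIndex_stab_zeta`, `exists_fixed_congr`, `w_int_of_fixed` (`Val/Cyc.lean`),
`relIndex_stab_ne_zero`, `exists_rat_rep_one` (`Rat/H90.lean`).

`exists_rat_approx`: `x ∈ ratF N (stab H θ)` for a suitable `θ` (`exists_theta_fun`, `exists_theta`), `R : Retr q H (stab H θ)` (`exists_retr`), `x₀ = R.E N x`: `E_mem`, `E_mem_of_stable`, `E_res`.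
`exists_rat_approx₂`: the same, with `E_Wq` for the second valuation.
(helper10's `Speiser` + `Elim` give another proof; either one is fine.)
-/

set_option autoImplicit false
set_option synthInstance.maxHeartbeats 400000

open HahnSeries ModularCurve AlgebraicCurve Fermat.Agent.S24 Fermat.Agent.S29 Fermat.Agent.S18
  Fermat.Agent.ES Fermat.Agent.ES.Alg Fermat.Agent.S34.Mod Fermat.Agent.S05 Fermat.Agent.S55.B ExtCitation
open Fermat.Agent.S55 (Dq Iq)

noncomputable section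

namespace Fermat.Agent.S33

variable {q : Nat.Primes} {N : ℕ} [NeZero N] {H : Subgroup GQ}

/-- finitely many functions are rational over a common subgroup of finite index of `H` -/
theorem exists_common_rat (hH : H ≤ Iq q) (hfin : H.relIndex (Iq q) ≠ 0) (s : Finset (FN N)) :
    ∃ H' : Subgroup GQ, H' ≤ H ∧ H'.relIndex (Iq q) ≠ 0 ∧ ∀ x ∈ s, x ∈ ratF N H' := by
  classical
  induction s using Finset.induction_on with
  | empty => exact ⟨H, le_rfl, hfin, fun x hx => absurd hx (Finset.notMem_empty x)⟩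
  | insert a s _ ih =>
    obtain ⟨H', hle, hfin', hs⟩ := ih
    obtain ⟨L, hL, hθ⟩ := exists_theta_fun a
    obtain ⟨θ, hθ'⟩ := exists_theta L
    refine ⟨stab H' θ, (stab_le H' θ).trans hle,
      relIndex_stab_ne_zero q (hle.trans hH) hfin' θ, fun x hx => ?_⟩
    rcases Finset.mem_insert.1 hx with rfl | hx
    · exact hθ θ hθ' H'
    · exact ratF_mono (stab_le H' θ) (hs x hx)

/-- **rational approximation**: an integral element of a `Kb`- and `gal H`-stable additive subgroup `Λ` is congruent modulo `𝔪` to a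
rational element of `Λ` -/
theorem exists_rat_approx (hH : H ≤ Iq q) (hfin : H.relIndex (Iq q) ≠ 0) (Λ : AddSubgroup (FN N))
    (h1 : ∀ (a : Kb), ∀ x ∈ Λ, algebraMap Kb (FN N) a * x ∈ Λ) (h2 : ∀ σ ∈ H, ∀ x ∈ Λ, gal N σ x ∈ Λ)
    {x : FN N} (hx : x ∈ Λ) (hx0 : (wG q N).GE x 0) :
    ∃ x₀ ∈ Λ, x₀ ∈ ratF N H ∧ (wG q N).GT (x - x₀) 0 := by
  obtain ⟨L, hL, hθ⟩ := exists_theta_fun x
  obtain ⟨θ, hθ'⟩ := exists_theta L
  have hxr : x ∈ ratF N (stab H θ) := hθ θ hθ' H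
  obtain ⟨R⟩ := exists_retr q hH hfin θ
  refine ⟨R.E N x, R.E_mem_of_stable Λ h1 h2 hx, R.E_mem hH hxr, ?_⟩
  have h3 : (wG q N).GT (R.E N x - x) 0 := by
    first
      | exact R.E_res hH hxr hx0
      | exact R.E_res hH (stab_le _ _) hxr hx0
  have h4 := h3.neg
  rwa [neg_sub] at h4

/-- the same at level `M1 q`, for both valuations -/
theorem exists_rat_approx₂ {M1 : ℕ} [NeZero M1] [NeZero (q : ℕ)] (hc : Nat.Coprime (q : ℕ) M1)
    (hH : H ≤ Iq q) (hfin : H.relIndex (Iq q) ≠ 0) (Λ : AddSubgroup (FN (M1 * (q : ℕ))))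
    (h1 : ∀ (a : Kb), ∀ x ∈ Λ, algebraMap Kb (FN (M1 * (q : ℕ))) a * x ∈ Λ)
    (h2 : ∀ σ ∈ H, ∀ x ∈ Λ, gal (M1 * (q : ℕ)) σ x ∈ Λ)
    {x : FN (M1 * (q : ℕ))} (hx : x ∈ Λ) (hx0 : (wG q (M1 * (q : ℕ))).GE x 0)
    (hx1 : (wZ q hc).GE x 0) :
    ∃ x₀ ∈ Λ, x₀ ∈ ratF (M1 * (q : ℕ)) H ∧ (wG q (M1 * (q : ℕ))).GT (x - x₀) 0 ∧
      (wZ q hc).GT (x - x₀) 0 := by
  obtain ⟨L, hL, hθ⟩ := exists_theta_fun x
  obtain ⟨θ, hθ'⟩ := exists_theta L
  have hxr : x ∈ ratF (M1 * (q : ℕ)) (stab H θ) := hθ θ hθ' H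
  obtain ⟨R⟩ := exists_retr q hH hfin θ
  refine ⟨R.E (M1 * (q : ℕ)) x, R.E_mem_of_stable Λ h1 h2 hx, R.E_mem hH hxr, ?_, ?_⟩
  · have h3 : (wG q (M1 * (q : ℕ))).GT (R.E (M1 * (q : ℕ)) x - x) 0 := by
      first
        | exact R.E_res hH hxr hx0
        | exact R.E_res hH (stab_le _ _) hxr hx0
    have h4 := h3.neg
    rwa [neg_sub] at h4
  · rw [wZ_GT_iff, map_sub, ← R.E_Wq hc]
    have hW : Wq hc x ∈ ratF (M1 * (q : ℕ)) (stab H θ) := Wq_mem_ratF hc hxr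
    have hW0 : (wG q (M1 * (q : ℕ))).GE (Wq hc x) 0 := (wZ_GE_iff hc).1 hx1
    have h3 : (wG q (M1 * (q : ℕ))).GT (R.E (M1 * (q : ℕ)) (Wq hc x) - Wq hc x) 0 := by
      first
        | exact R.E_res hH hW hW0
        | exact R.E_res hH (stab_le _ _) hW hW0
    have h4 := h3.neg
    rwa [neg_sub] at h4

end Fermat.Agent.S33
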