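import Mathlib

/-!
# S33/RAT : rational approximation by Gaussian elimination, abstract            key `S33/RAT-ELIM`   (MATHLIB ONLY, ~200 lines)

`K` a field, `A` a valuation subring, `K0 ⊆ K` a subfield with the SAME residue field (`hres`).  `V` a `K`-vector space, `φ j : V → K` (`j ∈ J`) linear forms
("coefficients").  `V0 ⊆ V` a set of "rational" vectors: stable under subtraction and under multiplication by `K0`, `φ j` maps `V0` to `K0`, and the
"Gauss norm is attained" on `V0`: every `y ≠ 0` in `V0` has a dominant coefficient `φ j0 y ≠ 0`, `φ j y / φ j0 y ∈ A`.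

**`exists_approx`** : if `x ∈ span_K V0` has all coefficients in `A`, there are `x' ∈ V0` and `a ∈ 𝔪` with `φ j (x - x') ∈ a A` for all `j`
(and then automatically `φ j x' ∈ A`).

## Proof
CLAIM `P n`: for all `e : Fin n → V` with values in `V0` and all `c : Fin n → K` such that `x = ∑ c i • e i` has all coefficients in `A`, the conclusion holds.
(`Submodule.mem_span_set'` / `Submodule.mem_span_iff_exists_finset_subset` / `mem_span_range_iff_exists_fun` turn `x ∈ span` into such a sum.)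
`P 0`: `x = 0`, `x' = 0` (`0 = y - y ∈ V0` needs one element of `V0`; if `V0 = ∅` then … so ASSUME `0 ∈ V0`, hypothesis `h0`), `a = 0`.
`P n ⟹ P (n+1)`: let `e_n` be the last vector (`Fin.sum_univ_castSucc`).  If `e_n = 0` drop it.  Otherwise take the dominant index `j0` of `e_n`, `d = φ j0 e_n ∈ K0`, `d ≠ 0`,
`f = d⁻¹ • e_n ∈ V0`: `φ j0 f = 1`, `φ j f ∈ A` for all `j`.  `e'_i = e_i - φ j0 (e_i) • f ∈ V0`, `φ j0 e'_i = 0`.
`x = ∑_{i<n} c_i • e'_i + c' • f` with `c' = ∑_{i<n} c_i φ j0 (e_i) + c_n d = φ j0 x ∈ A`.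
So `x₁ = x - c' • f = ∑_{i<n} c_i • e'_i` has all coefficients in `A`; induction gives `x₁' ∈ V0`, `a₁ ∈ 𝔪`.  `hres`: `c'' ∈ A ∩ K0`, `c' - c'' ∈ 𝔪`.
`x' = x₁' + c'' • f` (`= x₁' - (-c'') • f ∈ V0`), `φ j (x - x') = φ j (x₁ - x₁') + (c' - c'') φ j f ∈ a₁ A + (c' - c'') A ⊆ a A`, where `a` is the one of
`a₁`, `c' - c''` which divides the other (`ValuationSubring`: `A.mem_or_inv_mem`, or `ValuationRing.dvd_total` in the ring `A`).
-/

set_option autoImplicit false

namespace Fermat.Agent.S33.Rat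

variable {K : Type*} [Field K] (A : ValuationSubring K) (K0 : Subfield K)
variable {V : Type*} [AddCommGroup V] [Module K V] {J : Type*}

/-- [S33/RAT-ELIM] -/
theorem exists_approx
    (hres : ∀ a : A, ∃ a' : A, (a' : K) ∈ K0 ∧ a - a' ∈ IsLocalRing.maximalIdeal A)
    (φ : J → V →ₗ[K] K) (V0 : Set V) (h0 : (0 : V) ∈ V0)
    (hsub : ∀ y ∈ V0, ∀ z ∈ V0, y - z ∈ V0) (hsmul : ∀ c ∈ K0, ∀ y ∈ V0, c • y ∈ V0)
    (hφ : ∀ j, ∀ y ∈ V0, φ j y ∈ K0)
    (hatt : ∀ y ∈ V0, y ≠ 0 → ∃ j0, φ j0 y ≠ 0 ∧ ∀ j, φ j y / φ j0 y ∈ A)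
    (x : V) (hx : x ∈ Submodule.span K V0) (hxA : ∀ j, φ j x ∈ A) :
    ∃ x' ∈ V0, ∃ a ∈ IsLocalRing.maximalIdeal A, ∀ j, ∃ b : A, φ j (x - x') = (a : K) * b := by
  classical
  have htriv : ∃ x' ∈ V0, ∃ a ∈ IsLocalRing.maximalIdeal A, ∀ j, ∃ b : A,
      φ j ((0 : V) - x') = (a : K) * b :=
    ⟨0, h0, 0, Ideal.zero_mem _, fun j => ⟨0, by simp⟩⟩
  have main : ∀ (n : ℕ) (T : Finset V), T.card ≤ n → (∀ y ∈ T, y ∈ V0) →
      ∀ x ∈ Submodule.span K (T : Set V), (∀ j, φ j x ∈ A) →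
      ∃ x' ∈ V0, ∃ a ∈ IsLocalRing.maximalIdeal A, ∀ j, ∃ b : A, φ j (x - x') = (a : K) * b := by
    intro n
    induction n with
    | zero =>
      intro T hcard _ x hx _
      have hT0 : T = ∅ := Finset.card_eq_zero.mp (Nat.le_zero.mp hcard)
      rw [hT0, Finset.coe_empty, Submodule.span_empty, Submodule.mem_bot] at hx
      rw [hx]
      exact htriv
    | succ n ih =>
      intro T hcard hT x hx hxA
      by_cases hall : ∀ y ∈ T, y = 0
      · have hle : Submodule.span K (T : Set V) ≤ ⊥ := by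
          rw [Submodule.span_le]
          intro y hy
          exact (Submodule.mem_bot K).mpr (hall y hy)
        rw [(Submodule.mem_bot K).mp (hle hx)]
        exact htriv
      · push Not at hall
        obtain ⟨y₀, hy₀T, hy₀⟩ := hall
        obtain ⟨j0, hj0, hdom⟩ := hatt y₀ (hT y₀ hy₀T) hy₀
        obtain ⟨d, hd⟩ : ∃ d, d = φ j0 y₀ := ⟨_, rfl⟩
        rw [← hd] at hj0 hdom
        have hdK : d ∈ K0 := hd ▸ hφ j0 y₀ (hT y₀ hy₀T)
        obtain ⟨f, hf⟩ : ∃ f : V, f = d⁻¹ • y₀ := ⟨_, rfl⟩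
        have hfV : f ∈ V0 := hf ▸ hsmul _ (K0.inv_mem hdK) _ (hT y₀ hy₀T)
        have hfA : ∀ j, φ j f ∈ A := fun j => by
          have : φ j f = φ j y₀ / d := by rw [hf, map_smul, smul_eq_mul, div_eq_inv_mul]
          rw [this]; exact hdom j
        obtain ⟨π, hπ⟩ : ∃ π : V →ₗ[K] V, ∀ v, π v = v - φ j0 v • f :=
          ⟨LinearMap.id - (φ j0).smulRight f, fun v => rfl⟩
        have hπy₀ : π y₀ = 0 := by
          rw [hπ, ← hd, hf, smul_smul, mul_inv_cancel₀ hj0, one_smul, sub_self]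
        have hcard' : ((T.erase y₀).image π).card ≤ n :=
          Finset.card_image_le.trans (by rw [Finset.card_erase_of_mem hy₀T]; omega)
        have hT'V : ∀ y ∈ (T.erase y₀).image π, y ∈ V0 := by
          intro y hy
          obtain ⟨v, hv, rfl⟩ := Finset.mem_image.mp hy
          have hvT := Finset.mem_of_mem_erase hv
          rw [hπ]
          exact hsub _ (hT v hvT) _ (hsmul _ (hφ j0 v (hT v hvT)) _ hfV)
        have hπx : π x ∈ Submodule.span K (((T.erase y₀).image π : Finset V) : Set V) := by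
          have h1 : π x ∈ (Submodule.span K (T : Set V)).map π := Submodule.mem_map_of_mem hx
          rw [Submodule.map_span] at h1
          refine (Submodule.span_le.mpr ?_) h1
          rintro _ ⟨v, hv, rfl⟩
          by_cases hvy : v = y₀
          · rw [hvy, hπy₀]; exact Submodule.zero_mem _
          · exact Submodule.subset_span (Finset.mem_coe.mpr (Finset.mem_image.mpr
              ⟨v, Finset.mem_erase.mpr ⟨hvy, hv⟩, rfl⟩))
        have hπA : ∀ j, φ j (π x) ∈ A := by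
          intro j
          rw [hπ, map_sub, map_smul, smul_eq_mul]
          exact sub_mem (hxA j) (mul_mem (hxA j0) (hfA j))
        obtain ⟨x₁', hx₁', a₁, ha₁, hb₁⟩ := ih _ hcard' hT'V (π x) hπx hπA
        obtain ⟨c'', hc''K, hc''⟩ := hres ⟨φ j0 x, hxA j0⟩
        obtain ⟨a₂, ha₂⟩ : ∃ a₂ : A, a₂ = ⟨φ j0 x, hxA j0⟩ - c'' := ⟨_, rfl⟩
        rw [← ha₂] at hc''
        have ha₂' : (a₂ : K) = φ j0 x - (c'' : K) := by rw [ha₂]; rfl
        have hx'V : x₁' - (-(c'' : K)) • f ∈ V0 :=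
          hsub _ hx₁' _ (hsmul _ (K0.neg_mem hc''K) _ hfV)
        have hkey : ∀ j, φ j (x - (x₁' - (-(c'' : K)) • f)) =
            φ j (π x - x₁') + (a₂ : K) * φ j f := by
          intro j
          have : x - (x₁' - (-(c'' : K)) • f) = (π x - x₁') + (a₂ : K) • f := by
            rw [hπ, ha₂', sub_smul, neg_smul]; abel
          rw [this, map_add, map_smul, smul_eq_mul]
        rcases ValuationRing.dvd_total a₁ a₂ with ⟨t, ht⟩ | ⟨t, ht⟩
        · refine ⟨_, hx'V, a₁, ha₁, fun j => ?_⟩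
          obtain ⟨b, hb⟩ := hb₁ j
          refine ⟨b + t * ⟨φ j f, hfA j⟩, ?_⟩
          rw [hkey, hb, ht]
          push_cast
          ring
        · refine ⟨_, hx'V, a₂, hc'', fun j => ?_⟩
          obtain ⟨b, hb⟩ := hb₁ j
          refine ⟨t * b + ⟨φ j f, hfA j⟩, ?_⟩
          rw [hkey, hb, ht]
          push_cast
          ring
  obtain ⟨T, hTV, hxT⟩ := Submodule.mem_span_finite_of_mem_span hx
  exact main T.card T le_rfl (fun y hy => hTV hy) x hxT hxA

end Fermat.Agent.S33.Rat
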