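import Fermat.Agent.S33.Rat.Orth
import Fermat.Agent.S33.Val.Gauss
import Fermat.Agent.ES.AlgGal

/-!
# S33/RATF : rational functions `ratF N H = {x ∈ FN N | gal σ x = x ∀ σ ∈ H}` and the retraction `E` on functions          key `S33/RATF`

`H ≤ Iq q`.  `gal N σ` acts on `q`-expansions coefficientwise (`coe_arithmeticRingAut_apply`), and the expansion map is injective: `x ∈ ratF N H ↔` all coefficients are in `Fx H`.

(den) **rational denominators**: `x ∈ FN N`, `GE x (w c)`.  `exists_series_of_GE`: `x y₂ = c y₁`, `y₁, y₂ ∈ A((t)) ∩ FN N`, `red y₂ ≠ 0`.  `y₂` is fixed by a subgroup of finite index of `H`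
   (`exists_level`), its orbit `{y₂^(1) = y₂, …, y₂^(k)}` under `H` is finite; each conjugate is integral with the SAME reduction (`H ≤ Iq q`); replace `(y₁, y₂)` by
   `(y₁ ∏_{j>1} y₂^(j), ∏_j y₂^(j))`: now `y₂ ∈ ratF N H`.
(val) `wG_rat`: `x ∈ ratF N H`, `x = c y₁ / y₂`, `w x = w c`, `red y₁ ≠ 0`, `y₂` rational; then `c y₁ = x y₂` is rational, a coefficient `a_n` of `c y₁` with `red ≠ 0` has `w a_n = w c`, `a_n ∈ Fx H`.
(E) `R : Retr q H H₂`, `R.E N x = ∑ μ_i gal(s_i)(x)`: additive, `ratF N H`-linear, `E 1 = 1`.  For `x ∈ ratF N H₂`, `x = c y₁/y₂` with `y₂ ∈ ratF N H` by (den): `E x = E(c y₁)/y₂`, the coefficients of `c y₁ = x y₂`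
   are in `Fx H₂`, and `E` acts on them by `R`: `E_mem` (`R.fix`), `E_GE` (`R.contr` + `GE_of_series`), `E_res`: for `a ∈ Fx H₂` integral, `a ≡ a' ∈ Fx (Iq q) ⊆ Fx H` (`exists_fixed_congr`), so
   `E a - a = E(a - a') - (a - a')` has `w > 0`; so `red (E y₁ - y₁) = 0`.
NOTE (helper22): `E_GE`, `E_GT`, `E_res` have the extra hypothesis `hle : H₂ ≤ H` (the rational denominator must also be `H₂`-rational).
-/

set_option autoImplicit false
set_option synthInstance.maxHeartbeats 400000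
set_option linter.unusedSectionVars false
set_option linter.unusedVariables false

open HahnSeries ModularCurve AlgebraicCurve Fermat.Agent.S24 Fermat.Agent.S29 Fermat.Agent.S18
  Fermat.Agent.ES Fermat.Agent.ES.Alg Fermat.Agent.S34.Mod Fermat.Agent.S05 Fermat.Agent.S55.B ExtCitation
open Fermat.Agent.S55 (Dq Iq)

noncomputable section

namespace Fermat.Agent.S33

/-- the functions which are rational over `Fx H` -/
def ratF (N : ℕ) [NeZero N] (H : Subgroup GQ) : Subfield (FN N) where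
  carrier := {x | ∀ σ ∈ H, gal N σ x = x}
  mul_mem' := fun {a b} ha hb σ hσ => by rw [map_mul, ha σ hσ, hb σ hσ]
  one_mem' := fun σ _ => map_one _
  add_mem' := fun {a b} ha hb σ hσ => by rw [map_add, ha σ hσ, hb σ hσ]
  zero_mem' := fun σ _ => map_zero _
  neg_mem' := fun {a} ha σ hσ => by rw [map_neg, ha σ hσ]
  inv_mem' := fun a ha σ hσ => by rw [map_inv₀, ha σ hσ]

variable {q : Nat.Primes} {N : ℕ} [NeZero N] {H H₂ : Subgroup GQ}

theorem mem_ratF {x : FN N} : x ∈ ratF N H ↔ ∀ σ ∈ H, gal N σ x = x := Iff.rfl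

theorem ratF_mono (h : H₂ ≤ H) : ratF N H ≤ ratF N H₂ := fun _ hx σ hσ => hx σ (h hσ)

theorem ratfAux_coeff_gal (σ : GQ) (x : FN N) (n : ℤ) :
    ((gal N σ x : FN N) : LaurentSeries Kb).coeff n = σ ((x : LaurentSeries Kb).coeff n) := by
  rw [coe_arithmeticRingAut_apply, coeffMap_coeff]
  rfl

theorem ratfAux_ext {x y : FN N}
    (h : ∀ n, (x : LaurentSeries Kb).coeff n = (y : LaurentSeries Kb).coeff n) : x = y :=
  Subtype.ext (HahnSeries.ext (funext h))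

theorem mem_ratF_iff_coeff {x : FN N} :
    x ∈ ratF N H ↔ ∀ n, (x : LaurentSeries Kb).coeff n ∈ Fx H := by
  constructor
  · intro hx n
    rw [mem_Fx]
    intro σ hσ
    rw [← ratfAux_coeff_gal, hx σ hσ]
  · intro h σ hσ
    apply ratfAux_ext
    intro n
    rw [ratfAux_coeff_gal, mem_Fx.1 (h n) σ hσ]

theorem ratfAux_gal_mul (σ τ : GQ) (x : FN N) : gal N (σ * τ) x = gal N σ (gal N τ x) := by
  apply ratfAux_ext
  intro n
  rw [ratfAux_coeff_gal, ratfAux_coeff_gal, ratfAux_coeff_gal]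
  rfl

theorem ratfAux_gal_one (x : FN N) : gal N 1 x = x := by
  apply ratfAux_ext
  intro n
  rw [ratfAux_coeff_gal]
  rfl

theorem ratfAux_coeff_smul (a : Kb) (x : FN N) (n : ℤ) :
    ((algebraMap Kb (FN N) a * x : FN N) : LaurentSeries Kb).coeff n =
      a * (x : LaurentSeries Kb).coeff n := by
  have e : ((algebraMap Kb (FN N) a * x : FN N) : LaurentSeries Kb) =
      algebraMap Kb (LaurentSeries Kb) a * (x : LaurentSeries Kb) := rfl
  rw [e, KLAux.algebraMap_mul_coeff]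

theorem ratfAux_coeff_sum {ι : Type*} (s : Finset ι) (f : ι → FN N) (n : ℤ) :
    ((∑ i ∈ s, f i : FN N) : LaurentSeries Kb).coeff n =
      ∑ i ∈ s, ((f i : FN N) : LaurentSeries Kb).coeff n := by
  classical
  induction s using Finset.induction_on with
  | empty => simp
  | insert i s hi ih =>
    rw [Finset.sum_insert hi, Finset.sum_insert hi, ← ih]
    rfl

theorem algebraMap_mem_ratF {a : Kb} (ha : a ∈ Fx H) : algebraMap Kb (FN N) a ∈ ratF N H := by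
  intro σ hσ
  rw [arithmeticRingAut_algebraMap, mem_Fx.1 ha σ hσ]

theorem exists_theta_fun (x : FN N) : ∃ L : IntermediateField ℚ Qb, FiniteDimensional ℚ L ∧
    ∀ θ : Qb, (∀ σ : GQ, σ θ = θ → ∀ a ∈ L, σ a = a) → ∀ H : Subgroup GQ, x ∈ ratF N (stab H θ) := by
  obtain ⟨L, hL, h⟩ := exists_level x
  exact ⟨L, hL, fun θ hθ H σ hσ => h σ (hθ σ hσ.2)⟩

/-- the retraction on functions -/
def Retr.E (R : Retr q H H₂) (N : ℕ) [NeZero N] : FN N →+ FN N :=
  ∑ i, (AddMonoidHom.mulLeft (algebraMap Kb (FN N) (R.μ i))).comp (gal N (R.s i) : FN N →+* FN N).toAddMonoidHom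

theorem Retr.E_apply (R : Retr q H H₂) (x : FN N) :
    R.E N x = ∑ i, algebraMap Kb (FN N) (R.μ i) * gal N (R.s i) x := by
  unfold Retr.E
  rw [AddMonoidHom.finsetSum_apply]
  rfl

theorem Retr.coeff_E (R : Retr q H H₂) (x : FN N) (n : ℤ) :
    ((R.E N x : FN N) : LaurentSeries Kb).coeff n =
      ∑ i, R.μ i * R.s i ((x : LaurentSeries Kb).coeff n) := by
  rw [R.E_apply, ratfAux_coeff_sum]
  exact Finset.sum_congr rfl fun i _ => by rw [ratfAux_coeff_smul, ratfAux_coeff_gal]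

theorem Retr.E_mul (R : Retr q H H₂) {x : FN N} (hx : x ∈ ratF N H) (y : FN N) :
    R.E N (x * y) = x * R.E N y := by
  rw [R.E_apply, R.E_apply, Finset.mul_sum]
  refine Finset.sum_congr rfl fun i _ => ?_
  rw [map_mul, hx _ (R.mem i)]
  ring

theorem Retr.E_of_mem (R : Retr q H H₂) {x : FN N} (hx : x ∈ ratF N H) : R.E N x = x := by
  have h1 : R.E N (1 : FN N) = 1 := by
    rw [R.E_apply]
    simp only [map_one, mul_one]
    rw [← map_sum, R.one, map_one]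
  have := R.E_mul hx 1
  rwa [mul_one, h1, mul_one] at this

theorem Retr.E_mem (R : Retr q H H₂) (hH : H ≤ Iq q) {x : FN N} (hx : x ∈ ratF N H₂) :
    R.E N x ∈ ratF N H := by
  rw [mem_ratF_iff_coeff] at hx ⊢
  intro n
  rw [R.coeff_E]
  exact R.fix _ (hx n)

theorem Retr.E_mem_of_stable (R : Retr q H H₂) (Λ : AddSubgroup (FN N))
    (h1 : ∀ (a : Kb), ∀ x ∈ Λ, algebraMap Kb (FN N) a * x ∈ Λ) (h2 : ∀ σ ∈ H, ∀ x ∈ Λ, gal N σ x ∈ Λ)
    {x : FN N} (hx : x ∈ Λ) : R.E N x ∈ Λ := by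
  rw [R.E_apply]
  exact Λ.sum_mem fun i _ => h1 _ _ (h2 _ (R.mem i) _ hx)



/-! ### constants -/

theorem ratfAux_GE_coe (a : AA q) : (wq q).GE (a : Kb) 0 := by
  have h : (a : Kb) ∈ OO (wq q) := by rw [OO_wq]; exact a.2
  exact h

theorem ratfAux_mem_of_GE {a : Kb} (h : (wq q).GE a 0) : a ∈ AA q := by
  have h' : a ∈ OO (wq q) := h
  rwa [OO_wq] at h'

theorem ratfAux_residue_eq_zero_iff (a : AA q) :
    IsLocalRing.residue (AA q) a = 0 ↔ (wq q).GT (a : Kb) 0 := by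
  rw [IsLocalRing.residue_eq_zero_iff, GT_zero_iff_mem_nonunits,
    ValuationSubring.coe_mem_nonunits_iff]

/-! ### integral series -/

theorem ratfAux_intRed_of_GE {x : FN N}
    (h : ∀ n, (wq q).GE ((x : LaurentSeries Kb).coeff n) 0) : ∃ r, IntRed (AA q) N x r := by
  obtain ⟨y, hy⟩ := Alg.exists_lift (A := AA q) (x : LaurentSeries Kb)
    fun n => ratfAux_mem_of_GE (h n)
  exact ⟨_, y, hy, rfl⟩

theorem ratfAux_intRed_zero_of_GT {x : FN N}
    (h : ∀ n, (wq q).GT ((x : LaurentSeries Kb).coeff n) 0) : IntRed (AA q) N x 0 := by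
  obtain ⟨y, hy⟩ := Alg.exists_lift (A := AA q) (x : LaurentSeries Kb)
    fun n => ratfAux_mem_of_GE ((h n).GE le_rfl)
  refine ⟨y, hy, ?_⟩
  ext n
  rw [coeffMap_coeff, HahnSeries.coeff_zero, ratfAux_residue_eq_zero_iff]
  have := h n
  rw [← hy, coeffMap_coeff] at this
  exact this

theorem ratfAux_GE_coeff {x : FN N} {r : LaurentSeries (kA (AA q))} (h : IntRed (AA q) N x r)
    (n : ℤ) : (wq q).GE ((x : LaurentSeries Kb).coeff n) 0 := by
  obtain ⟨y, hy, -⟩ := h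
  rw [← hy, coeffMap_coeff]
  exact ratfAux_GE_coe _

theorem ratfAux_exists_EQ_coeff {x : FN N} {r : LaurentSeries (kA (AA q))}
    (h : IntRed (AA q) N x r) (hr : r ≠ 0) : ∃ n, (wq q).EQ ((x : LaurentSeries Kb).coeff n) 0 := by
  obtain ⟨y, hy, rfl⟩ := h
  obtain ⟨n, hn⟩ : ∃ n, (red (AA q) y).coeff n ≠ 0 := by
    by_contra hcon
    push Not at hcon
    exact hr (HahnSeries.ext (funext hcon))
  refine ⟨n, ?_⟩
  rw [coeffMap_coeff, Ne, ratfAux_residue_eq_zero_iff, GT_iff_not_EQ _ (ratfAux_GE_coe _),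
    not_not] at hn
  rw [← hy, coeffMap_coeff]
  exact hn

theorem ratfAux_intRed_one : IntRed (AA q) N 1 1 := ⟨1, by rw [map_one]; rfl, map_one _⟩

theorem ratfAux_intRed_prod {ι : Type*} (s : Finset ι) (f : ι → FN N)
    {r : LaurentSeries (kA (AA q))} (h : ∀ i ∈ s, IntRed (AA q) N (f i) r) :
    IntRed (AA q) N (∏ i ∈ s, f i) (r ^ s.card) := by
  classical
  induction s using Finset.induction_on with
  | empty => simpa using ratfAux_intRed_one
  | insert i s hi ih =>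
    rw [Finset.prod_insert hi, Finset.card_insert_of_notMem hi, pow_succ']
    exact (h i (Finset.mem_insert_self i s)).mul (ih fun j hj => h j (Finset.mem_insert_of_mem hj))

theorem ratfAux_EQ_of_intRed {x : FN N} {r : LaurentSeries (kA (AA q))}
    (h : IntRed (AA q) N x r) (hr : r ≠ 0) : (wG q N).EQ x 0 := by
  have := (EQ_zero_iff (q := q) (N := N) ⟨x, mem_Vinf_of_intRed h⟩).2
    (by rw [resInf_of_intRed h]; exact hr)
  exact this

theorem ratfAux_GT_of_intRed {x : FN N} (h : IntRed (AA q) N x 0) : (wG q N).GT x 0 :=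
  (GT_zero_iff (q := q) (N := N) ⟨x, mem_Vinf_of_intRed h⟩).2 (resInf_of_intRed h)

theorem ratfAux_GE_of_intRed {x : FN N} {r : LaurentSeries (kA (AA q))}
    (h : IntRed (AA q) N x r) : (wG q N).GE x 0 :=
  GE_zero_iff.2 (mem_Vinf_of_intRed h)

/-! ### (den) -/

/-- an integral function with nonzero reduction can be multiplied by another one to become rational -/
theorem ratfAux_den (hH : H ≤ Iq q) {Y : FN N} {r : LaurentSeries (kA (AA q))}
    (hY : IntRed (AA q) N Y r) (hr : r ≠ 0) :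
    ∃ (P : FN N) (r' : LaurentSeries (kA (AA q))), IntRed (AA q) N P r' ∧ r' ≠ 0 ∧
      Y * P ∈ ratF N H := by
  classical
  obtain ⟨L, hL, hfix⟩ := exists_level Y
  have hfi : L.fixingSubgroup.FiniteIndex := Fermat.Agent.S55.E.finiteIndex_fixingSubgroup L hL
  have hfin : Finite (↥H ⧸ L.fixingSubgroup.subgroupOf H) :=
    Subgroup.finite_quotient_of_finiteIndex
  cases nonempty_fintype (↥H ⧸ L.fixingSubgroup.subgroupOf H)
  have hfix' : ∀ σ ∈ L.fixingSubgroup, gal N σ Y = Y := fun σ hσ =>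
    hfix σ fun x hx => (IntermediateField.mem_fixingSubgroup_iff _ σ).1 hσ x hx
  let cj : ↥H ⧸ L.fixingSubgroup.subgroupOf H → FN N :=
    Quotient.lift (fun σ : H => gal N (σ : GQ) Y) (by
      intro a b hab
      have h1 : a⁻¹ * b ∈ L.fixingSubgroup.subgroupOf H := QuotientGroup.leftRel_apply.1 hab
      have h2 := hfix' _ (Subgroup.mem_subgroupOf.1 h1)
      have h3 : ((a⁻¹ * b : H) : GQ) = (a : GQ)⁻¹ * b := rfl
      rw [h3] at h2
      have h4 := congrArg (gal N (a : GQ)) h2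
      rw [← ratfAux_gal_mul, mul_inv_cancel_left] at h4
      exact h4.symm)
  have hcj : ∀ (τ : H) c, gal N (τ : GQ) (cj c) = cj (τ • c) := by
    intro τ c
    induction c using QuotientGroup.induction_on with
    | H σ => exact (ratfAux_gal_mul _ _ _).symm
  have hint : ∀ c, IntRed (AA q) N (cj c) r := by
    intro c
    induction c using QuotientGroup.induction_on with
    | H σ => exact hY.inertia (hH σ.2)
  have h1 : cj (QuotientGroup.mk 1) = Y := ratfAux_gal_one Y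
  refine ⟨∏ c ∈ Finset.univ.erase (QuotientGroup.mk 1), cj c, _,
    ratfAux_intRed_prod _ _ fun c _ => hint c, pow_ne_zero _ hr, ?_⟩
  have h2 : Y * ∏ c ∈ Finset.univ.erase (QuotientGroup.mk 1), cj c = ∏ c, cj c := by
    conv_lhs => rw [← h1]
    exact Finset.mul_prod_erase _ _ (Finset.mem_univ _)
  rw [h2]
  intro τ hτ
  rw [map_prod]
  have h3 : ∀ c, gal N τ (cj c) = cj ((⟨τ, hτ⟩ : H) • c) := fun c => hcj ⟨τ, hτ⟩ c
  simp only [h3]
  exact Equiv.prod_comp (MulAction.toPerm (⟨τ, hτ⟩ : H)) cj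

/-- (den): rational denominators -/
theorem ratfAux_exists_quot (hH : H ≤ Iq q) {x : FN N} {c : Kb} (hc : c ≠ 0)
    (h : (wG q N).GE x ((wq q).w c)) :
    ∃ (Y1 Y2 : FN N) (r1 r2 : LaurentSeries (kA (AA q))), IntRed (AA q) N Y1 r1 ∧
      IntRed (AA q) N Y2 r2 ∧ r2 ≠ 0 ∧ Y2 ∈ ratF N H ∧ x * Y2 = algebraMap Kb (FN N) c * Y1 := by
  obtain ⟨y1, y2, m1, m2, e, h2⟩ := exists_series_of_GE hc h
  obtain ⟨Y1, hY1c⟩ : ∃ Y1 : FN N, (Y1 : LaurentSeries Kb) = coeffMap (AA q).subtype y1 :=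
    ⟨⟨_, m1⟩, rfl⟩
  obtain ⟨Y2, hY2c⟩ : ∃ Y2 : FN N, (Y2 : LaurentSeries Kb) = coeffMap (AA q).subtype y2 :=
    ⟨⟨_, m2⟩, rfl⟩
  have hY1 : IntRed (AA q) N Y1 (red (AA q) y1) := ⟨y1, hY1c.symm, rfl⟩
  have hY2 : IntRed (AA q) N Y2 (red (AA q) y2) := ⟨y2, hY2c.symm, rfl⟩
  obtain ⟨P, r', hP, hr', hrat⟩ := ratfAux_den hH hY2 h2
  refine ⟨Y1 * P, Y2 * P, _, _, hY1.mul hP, hY2.mul hP, mul_ne_zero h2 hr', hrat, ?_⟩
  have e' : x * Y2 = algebraMap Kb (FN N) c * Y1 := by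
    apply ratfAux_ext
    intro n
    rw [ratfAux_coeff_smul, hY1c]
    have e1 : ((x * Y2 : FN N) : LaurentSeries Kb) = (x : LaurentSeries Kb) * (Y2 : LaurentSeries Kb) :=
      rfl
    rw [e1, hY2c, e, HahnSeries.C_mul_eq_smul, HahnSeries.coeff_smul, smul_eq_mul]
  rw [← mul_assoc, e', mul_assoc]



theorem ratfAux_EQ_algebraMap {c : Kb} (hc : c ≠ 0) :
    (wG q N).EQ (algebraMap Kb (FN N) c) ((wq q).w c) :=
  ⟨by simpa using hc, wG_algebraMap hc⟩

theorem wG_rat (hH : H ≤ Iq q) {x : FN N} (hx : x ∈ ratF N H) (hx0 : x ≠ 0) :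
    ∃ a ∈ Fx H, a ≠ 0 ∧ (wG q N).w x = (wq q).w a := by
  obtain ⟨c, u, hc, hxu, hu, hu', hw⟩ := exists_wG_eq (q := q) hx0
  have hGE : (wG q N).GE x ((wq q).w c) := Or.inr hw.ge
  obtain ⟨Y1, Y2, r1, r2, h1, h2, hr2, hrat, e⟩ := ratfAux_exists_quot hH hc hGE
  have hY2 : (wG q N).EQ Y2 0 := ratfAux_EQ_of_intRed h2 hr2
  have hcF : (wG q N).EQ (algebraMap Kb (FN N) c) ((wq q).w c) := ratfAux_EQ_algebraMap hc
  have hxE : (wG q N).EQ x ((wq q).w c) := ⟨hx0, hw⟩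
  have hY1 : (wG q N).EQ Y1 0 := by
    have h3 := hxE.mul hY2
    rw [e] at h3
    have := RVal.EQ.of_mul_eq_left (mul_comm Y1 (algebraMap Kb (FN N) c)) hcF h3
    simpa using this
  have hr1 : r1 ≠ 0 := by
    intro h0
    rw [h0] at h1
    exact (ratfAux_GT_of_intRed h1).not_LE (hY1.LE le_rfl) le_rfl
  obtain ⟨n, hn⟩ := ratfAux_exists_EQ_coeff h1 hr1
  refine ⟨c * (Y1 : LaurentSeries Kb).coeff n, ?_, mul_ne_zero hc hn.1, ?_⟩
  · rw [← ratfAux_coeff_smul, ← e]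
    exact mem_ratF_iff_coeff.1 ((ratF N H).mul_mem hx hrat) n
  · rw [hw, (wq q).map_mul _ _ hc hn.1, hn.2, add_zero]

theorem ratfAux_contr_GT (R : Retr q H H₂) {y : Qb} (hy : y ∈ Fx H₂) {t : ℝ}
    (h : (wq q).GT y t) : (wq q).GT (∑ i, R.μ i * R.s i y) t := by
  by_cases hy0 : y = 0
  · simp only [hy0, map_zero, mul_zero, Finset.sum_const_zero]
    exact RVal.GT_zero t
  · exact (R.contr y hy _ ((RVal.EQ_self hy0).GE le_rfl)).GT (h.lt_w hy0)

theorem Retr.E_GE (R : Retr q H H₂) (hH : H ≤ Iq q) (hle : H₂ ≤ H) {x : FN N}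
    (hx : x ∈ ratF N H₂) {t : ℝ} (h : (wG q N).GE x t) : (wG q N).GE (R.E N x) t := by
  by_cases hx0 : x = 0
  · rw [hx0, map_zero]; exact RVal.GE_zero t
  obtain ⟨c, u, hc, hxu, hu, hu', hw⟩ := exists_wG_eq (q := q) hx0
  have hGE : (wG q N).GE x ((wq q).w c) := Or.inr hw.ge
  obtain ⟨Y1, Y2, r1, r2, h1, h2, hr2, hrat, e⟩ := ratfAux_exists_quot hH hc hGE
  have hY2 : (wG q N).EQ Y2 0 := ratfAux_EQ_of_intRed h2 hr2
  have hcF : (wG q N).EQ (algebraMap Kb (FN N) c) ((wq q).w c) := ratfAux_EQ_algebraMap hc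
  have hZ : x * Y2 ∈ ratF N H₂ := (ratF N H₂).mul_mem hx (ratF_mono hle hrat)
  have hE : R.E N (x * Y2) = Y2 * R.E N x := by rw [mul_comm]; exact R.E_mul hrat x
  have hint : ∀ n, (wq q).GE
      (((algebraMap Kb (FN N) c⁻¹ * R.E N (x * Y2) : FN N) : LaurentSeries Kb).coeff n) 0 := by
    intro n
    rw [ratfAux_coeff_smul, R.coeff_E]
    have h3 : (wq q).GE (((x * Y2 : FN N) : LaurentSeries Kb).coeff n) ((wq q).w c) := by
      rw [e, ratfAux_coeff_smul]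
      simpa using ((RVal.EQ_self (v := wq q) hc).GE le_rfl).mul (ratfAux_GE_coeff h1 n)
    have h4 := R.contr _ (mem_ratF_iff_coeff.1 hZ n) _ h3
    have := ((RVal.EQ_self (v := wq q) hc).inv.GE le_rfl).mul h4
    simpa using this
  obtain ⟨r, hr⟩ := ratfAux_intRed_of_GE hint
  have h5 := ratfAux_GE_of_intRed hr
  have e2 : R.E N x =
      algebraMap Kb (FN N) c * (algebraMap Kb (FN N) c⁻¹ * R.E N (x * Y2)) * Y2⁻¹ := by
    rw [hE, ← mul_assoc, ← map_mul, mul_inv_cancel₀ hc, map_one, one_mul, mul_comm Y2,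
      mul_assoc, mul_inv_cancel₀ hY2.1, mul_one]
  rw [e2]
  have h6 := ((hcF.GE le_rfl).mul h5).mul (hY2.inv.GE le_rfl)
  refine h6.mono ?_
  have := h.le_w hx0
  rw [hw] at this
  linarith

theorem Retr.E_GT (R : Retr q H H₂) (hH : H ≤ Iq q) (hle : H₂ ≤ H) {x : FN N}
    (hx : x ∈ ratF N H₂) {t : ℝ} (h : (wG q N).GT x t) : (wG q N).GT (R.E N x) t := by
  by_cases hx0 : x = 0
  · rw [hx0, map_zero]; exact RVal.GT_zero t
  · exact (R.E_GE hH hle hx ((RVal.EQ_self hx0).GE le_rfl)).GT (h.lt_w hx0)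

theorem Retr.E_res (R : Retr q H H₂) (hH : H ≤ Iq q) (hle : H₂ ≤ H) {x : FN N}
    (hx : x ∈ ratF N H₂) (h : (wG q N).GE x 0) : (wG q N).GT (R.E N x - x) 0 := by
  have hGE : (wG q N).GE x ((wq q).w 1) := by rw [RVal.w_one]; exact h
  obtain ⟨Y1, Y2, r1, r2, h1, h2, hr2, hrat, e⟩ := ratfAux_exists_quot hH one_ne_zero hGE
  rw [map_one, one_mul] at e
  have hY2 : (wG q N).EQ Y2 0 := ratfAux_EQ_of_intRed h2 hr2
  have hY1 : Y1 ∈ ratF N H₂ := e ▸ (ratF N H₂).mul_mem hx (ratF_mono hle hrat)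
  have hE : R.E N Y1 = Y2 * R.E N x := by rw [← e, mul_comm]; exact R.E_mul hrat x
  have hcoef : ∀ n, (wq q).GT (((R.E N Y1 - Y1 : FN N) : LaurentSeries Kb).coeff n) 0 := by
    intro n
    have e1 : ((R.E N Y1 - Y1 : FN N) : LaurentSeries Kb).coeff n =
        ((R.E N Y1 : FN N) : LaurentSeries Kb).coeff n - (Y1 : LaurentSeries Kb).coeff n := rfl
    rw [e1, R.coeff_E]
    have ha : (Y1 : LaurentSeries Kb).coeff n ∈ Fx H₂ := mem_ratF_iff_coeff.1 hY1 n
    obtain ⟨a', hfix, ha'0, hcong⟩ := exists_fixed_congr q (ratfAux_GE_coeff h1 n)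
    generalize (Y1 : LaurentSeries Kb).coeff n = a at ha hcong ⊢
    have ha'H : a' ∈ Fx H := mem_Fx.2 fun σ hσ => hfix σ (hH hσ)
    have ha'H₂ : a' ∈ Fx H₂ := Fx_mono hle ha'H
    have hEa' : ∑ i, R.μ i * R.s i a' = a' := by
      have : ∀ i, R.μ i * R.s i a' = R.μ i * a' := fun i => by rw [mem_Fx.1 ha'H _ (R.mem i)]
      simp only [this]
      rw [← Finset.sum_mul, R.one, one_mul]
    have hsplit : ∑ i, R.μ i * R.s i a - a = (∑ i, R.μ i * R.s i (a - a')) - (a - a') := by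
      simp only [map_sub, mul_sub, Finset.sum_sub_distrib]
      rw [hEa']
      ring
    rw [hsplit]
    exact (ratfAux_contr_GT R (sub_mem ha ha'H₂) hcong).sub hcong
  have h3 := ratfAux_GT_of_intRed (ratfAux_intRed_zero_of_GT hcoef)
  have e2 : R.E N x - x = (R.E N Y1 - Y1) * Y2⁻¹ := by
    have := hY2.1
    rw [hE, ← e]
    field_simp
  rw [e2]
  simpa using h3.mul_GE (hY2.inv.GE le_rfl)

section Level

variable {M1 : ℕ} [NeZero M1] [NeZero (q : ℕ)]

theorem Retr.E_Wq (R : Retr q H H₂) (h : Nat.Coprime (q : ℕ) M1) (x : FN (M1 * (q : ℕ))) :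
    R.E (M1 * (q : ℕ)) (Wq h x) = Wq h (R.E (M1 * (q : ℕ)) x) := by
  rw [R.E_apply, R.E_apply, map_sum]
  refine Finset.sum_congr rfl fun i _ => ?_
  rw [map_mul, AlgEquiv.commutes, gal_Wq q.2 h]

theorem Wq_mem_ratF (h : Nat.Coprime (q : ℕ) M1) {x : FN (M1 * (q : ℕ))}
    (hx : x ∈ ratF (M1 * (q : ℕ)) H) : Wq h x ∈ ratF (M1 * (q : ℕ)) H := by
  intro σ hσ
  rw [gal_Wq q.2 h, hx σ hσ]

theorem alpha_mem_ratF {x : FN M1} (hx : x ∈ ratF M1 H) :
    heckeAlphaBar Kb M1 (q : ℕ) x ∈ ratF (M1 * (q : ℕ)) H := by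
  intro σ hσ
  rw [Alg.gal_alpha, hx σ hσ]

theorem beta_mem_ratF {x : FN M1} (hx : x ∈ ratF M1 H) :
    heckeBetaBar Kb M1 (q : ℕ) x ∈ ratF (M1 * (q : ℕ)) H := by
  intro σ hσ
  rw [Alg.gal_beta, hx σ hσ]

theorem normAlpha_mem_ratF {x : FN (M1 * (q : ℕ))} (hx : x ∈ ratF (M1 * (q : ℕ)) H) :
    normAlpha M1 (q : ℕ) x ∈ ratF M1 H := by
  intro σ hσ
  rw [Alg.gal_normAlpha, hx σ hσ]

end Level

end Fermat.Agent.S33
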