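import Fermat.Agent.S33.Rat.Fun
import Fermat.Agent.S33.Rat.H90Abs

/-!
# S33/H90 : a Kummer class fixed by `H` has a rational representative          key `S33/H90`

`H ≤ Iq q` of finite index, `u ∈ FN Nˣ`, `gal σ u = u g_σ^p` for all `σ ∈ H`.  Then `u g^p ∈ ratF N H` for some `g ≠ 0`.

## Proof
(1) normalise: the leading coefficient `a` of the `q`-expansion of `u` is a `p`-th power in `Kb`; WLOG `a = 1` (`u` "monic").  Then `gal σ u` is monic, so `g_σ^p` is monic and we can choose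
    `g_σ` monic (multiply by a `p`-th root of unity); a monic `g` with `g^p = 1` is `1`: `g_σ` is unique.  Hence the cocycle relation `g_{στ} = g_σ · gal σ (g_τ)`, `σ, τ ∈ H`.
(2) `L` a number field with: `σ` fixes `L` ⟹ `gal σ u = u` (`exists_level`), `θ` primitive (`exists_theta`), `H₂ = stab H θ`: `g_σ = 1` for `σ ∈ H₂`; so `g_{σ h} = g_σ` for `h ∈ H₂`.
    `s_1..s_n ∈ H` with `s_i θ` = the distinct conjugates of `θ` under `H`.
(3) Poincaré series: for `y ∈ Kb` put `P(y) = ∑_i g_{s_i} · (s_i y)`.  For `y = θ^j`, `j < n`, not all `P(θ^j)` vanish (Vandermonde `(s_i θ)^j` is invertible and `g_{s_i} ≠ 0`).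
    For `τ ∈ H`: `τ s_i = s_{e i} h_i`, `h_i ∈ H₂`, `gal τ (g_{s_i}) = g_τ⁻¹ g_{τ s_i} = g_τ⁻¹ g_{s_{e i}}`, `τ s_i θ^j = s_{e i} θ^j`: `gal τ (P) = g_τ⁻¹ P`.
(4) `g := P ≠ 0`: `gal τ (u g^p) = u g_τ^p g_τ^{-p} g^p = u g^p`.

`exists_rat_rep_one`: `u ≡ 1 (> 0)`, `u_r = u g^p` rational.  `wG_rat`: `w u_r = w a`, `a ∈ Fx H`; `a = b^p` in `Kb`; `u_r / a = u (g/b)^p` is a unit, `x₀ := g / b` is a unit of `Vinf`;
`x₀ ∈ ratF N (stab H θ')` for some `θ'`; `R : Retr q H (stab H θ')`; `x := R.E N x₀ ∈ ratF N H`, `x ≡ x₀` (`E_res`).  Then `u_r / (a x^p) = u (x₀/x)^p ≡ 1`, it is rational, and it is `u (g/(b x))^p`.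
-/

set_option autoImplicit false
set_option synthInstance.maxHeartbeats 400000

open HahnSeries ModularCurve AlgebraicCurve Fermat.Agent.S24 Fermat.Agent.S29 Fermat.Agent.S18
  Fermat.Agent.ES Fermat.Agent.ES.Alg Fermat.Agent.S34.Mod Fermat.Agent.S05 Fermat.Agent.S55.B ExtCitation
open Fermat.Agent.S55 (Dq Iq)

noncomputable section

namespace Fermat.Agent.S33

variable {q : Nat.Primes} {N : ℕ} [NeZero N] {H : Subgroup GQ}

/-- the leading coefficient of the `q`-expansion -/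
def lcF (N : ℕ) : FN N →*₀ Kb where
  toFun x := (x : LaurentSeries Kb).leadingCoeff
  map_zero' := HahnSeries.leadingCoeff_zero
  map_one' := HahnSeries.leadingCoeff_one
  map_mul' _ _ := HahnSeries.leadingCoeff_mul _ _

omit [NeZero N] in
theorem lcF_algebraMap (c : Kb) : lcF N (algebraMap Kb (FN N) c) = c := by
  show (algebraMap Kb (LaurentSeries Kb) c).leadingCoeff = c
  rw [algebraMap_laurentSeries_eq_single]
  exact HahnSeries.leadingCoeff_of_single

omit [NeZero N] in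
theorem lcF_gal (σ : GQ) (x : FN N) : lcF N (gal N σ x) = σ (lcF N x) := by
  show (coeffMap (σ : Kb →+* Kb) (x : LaurentSeries Kb)).leadingCoeff =
    σ (x : LaurentSeries Kb).leadingCoeff
  generalize (x : LaurentSeries Kb) = y
  by_cases hy : y = 0
  · rw [hy, map_zero, HahnSeries.leadingCoeff_zero, map_zero]
  · have hy' : coeffMap (σ : Kb →+* Kb) y ≠ 0 := by
      intro h0
      apply hy
      ext k
      have := congrArg (fun z : LaurentSeries Kb => z.coeff k) h0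
      simpa using this
    have h1 : (coeffMap (σ : Kb →+* Kb) y).order = y.order := by
      apply le_antisymm
      · apply HahnSeries.order_le_of_coeff_ne_zero
        rw [coeffMap_coeff]
        have := mt HahnSeries.coeff_order_eq_zero.mp hy
        simpa using this
      · apply HahnSeries.order_le_of_coeff_ne_zero
        have := mt HahnSeries.coeff_order_eq_zero.mp hy'
        rw [coeffMap_coeff] at this
        intro h0
        rw [h0] at this
        simp at this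
    rw [HahnSeries.leadingCoeff_eq, HahnSeries.leadingCoeff_eq, h1, coeffMap_coeff]
    rfl

omit [NeZero N] in
theorem h90Aux_gal_mul (σ τ : GQ) (x : FN N) : gal N (σ * τ) x = gal N σ (gal N τ x) := by
  have h := congrArg (fun g => SemilinearAut.toRingAut g x)
    (map_mul (arithmeticGalois (L := Qb) (modularFunctionFieldFull N)) σ τ)
  exact h

theorem h90Aux_finite_orbit (H : Subgroup GQ) (θ : Qb) : {y | ∃ σ ∈ H, σ θ = y}.Finite := by
  have hint : IsIntegral ℚ θ := ((AlgebraicClosure.isAlgebraic ℚ).isAlgebraic θ).isIntegral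
  refine ((minpoly ℚ θ).rootSet_finite Qb).subset ?_
  rintro _ ⟨σ, -, rfl⟩
  rw [Polynomial.mem_rootSet]
  refine ⟨minpoly.ne_zero hint, ?_⟩
  rw [Polynomial.aeval_algHom_apply, minpoly.aeval, map_zero]

/-- [S33/H90-a] -/
theorem exists_rat_rep {p : ℕ} (hp : 0 < p) (u : FN N) (hu : u ≠ 0)
    (h : ∀ σ ∈ H, ∃ g : FN N, gal N σ u = u * g ^ p) :
    ∃ g : FN N, g ≠ 0 ∧ u * g ^ p ∈ ratF N H := by
  exact Rat.h90_abs (K := ℚ) (Ω := Qb) (F := FN N) (fun σ => (gal N σ : FN N →+* FN N))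
    (fun σ τ x => h90Aux_gal_mul σ τ x) (fun σ c => gal_algebraMap σ c) (lcF N) lcF_algebraMap
    (fun σ x => lcF_gal σ x) H
    (fun x => by
      obtain ⟨L, hL, hLx⟩ := exists_level x
      obtain ⟨θ, hθ⟩ := exists_theta L
      exact ⟨θ, fun σ hσ => hLx σ (hθ σ hσ), h90Aux_finite_orbit H θ⟩) hp u hu h

/-- [S33/H90-b] -/
theorem exists_rat_rep_one (hH : H ≤ Iq q) (hfin : H.relIndex (Iq q) ≠ 0) {p : ℕ} (hp : 0 < p)
    (u : FN N) (hu : (wG q N).GT (u - 1) 0) (h : ∀ σ ∈ H, ∃ g : FN N, gal N σ u = u * g ^ p) :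
    ∃ g : FN N, g ≠ 0 ∧ u * g ^ p ∈ ratF N H ∧ (wG q N).GT (u * g ^ p - 1) 0 := by
  have huE : (wG q N).EQ u 0 := by
    have := (RVal.EQ_one (v := wG q N)).add_GT hu
    rwa [add_sub_cancel] at this
  have hu0 := huE.ne_zero
  obtain ⟨g, hg0, hgr⟩ := exists_rat_rep hp u hu0 h
  have hur0 : u * g ^ p ≠ 0 := mul_ne_zero hu0 (pow_ne_zero _ hg0)
  obtain ⟨a, haH, ha0, hwa⟩ := wG_rat hH hgr hur0
  obtain ⟨b, hb⟩ := IsAlgClosed.exists_pow_nat_eq a hp
  have hb0 : b ≠ 0 := by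
    rintro rfl
    rw [zero_pow hp.ne'] at hb
    exact ha0 hb.symm
  obtain ⟨B, hB⟩ : ∃ B : FN N, B = algebraMap Kb (FN N) b := ⟨_, rfl⟩
  have hB0 : B ≠ 0 := by rw [hB]; exact (map_ne_zero _).mpr hb0
  have hBa : B ^ p = algebraMap Kb (FN N) a := by rw [hB, ← map_pow, hb]
  obtain ⟨x₀, hx₀⟩ : ∃ x₀ : FN N, x₀ = g / B := ⟨_, rfl⟩
  have hx₀0 : x₀ ≠ 0 := hx₀ ▸ div_ne_zero hg0 hB0
  have hx₀E : (wG q N).EQ x₀ 0 := by
    refine ⟨hx₀0, ?_⟩
    have h1 : (wG q N).w (u * g ^ p) = p * (wG q N).w g := by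
      rw [(wG q N).map_mul _ _ hu0 (pow_ne_zero _ hg0), huE.w_eq, zero_add, RVal.w_pow hg0]
    have h2 : (wG q N).w (B ^ p) = p * (wG q N).w B := RVal.w_pow hB0 p
    have h2' : (wG q N).w (B ^ p) = (wq q).w a := by rw [hBa, wG_algebraMap ha0]
    have h3 : (p : ℝ) * ((wG q N).w g - (wG q N).w B) = 0 := by
      rw [mul_sub, ← h1, ← h2, hwa, h2', sub_self]
    rw [hx₀, RVal.w_div hg0 hB0]
    exact (mul_eq_zero.mp h3).resolve_left (by positivity)
  obtain ⟨L, hL, hLx⟩ := exists_theta_fun x₀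
  obtain ⟨θ, hθ⟩ := exists_theta L
  have hx₀r : x₀ ∈ ratF N (stab H θ) := hLx θ hθ H
  obtain ⟨R⟩ := exists_retr q hH hfin θ
  obtain ⟨x, hx⟩ : ∃ x : FN N, x = R.E N x₀ := ⟨_, rfl⟩
  have hxr : x ∈ ratF N H := hx ▸ R.E_mem hH hx₀r
  have hxx : (wG q N).GT (x - x₀) 0 := hx ▸ R.E_res hH (stab_le _ _) hx₀r (hx₀E.GE le_rfl)
  have hxE : (wG q N).EQ x 0 := by
    have := hx₀E.add_GT hxx
    rwa [add_sub_cancel] at this
  have hx0 := hxE.ne_zero
  refine ⟨g / (B * x), div_ne_zero hg0 (mul_ne_zero hB0 hx0), ?_, ?_⟩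
  · have e : u * (g / (B * x)) ^ p = u * g ^ p * (algebraMap Kb (FN N) a)⁻¹ * (x ^ p)⁻¹ := by
      rw [← hBa, div_pow, mul_pow]
      field_simp
    rw [e]
    exact (ratF N H).mul_mem ((ratF N H).mul_mem hgr
      ((ratF N H).inv_mem (algebraMap_mem_ratF haH))) ((ratF N H).inv_mem ((ratF N H).pow_mem hxr p))
  · have e : u * (g / (B * x)) ^ p - 1 = u * (x₀ / x) ^ p - 1 * 1 ^ p := by
      rw [hx₀, div_div, one_pow, mul_one]
    rw [e]
    have h1 : (wG q N).GT (x₀ / x - 1) 0 := by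
      have e1 : x₀ / x - 1 = -(x - x₀) * x⁻¹ := by field_simp; ring
      rw [e1]
      have := hxx.neg.mul_GE (hxE.inv.GE le_rfl)
      simpa using this
    have h2 : (wG q N).GE (x₀ / x) 0 := by
      have := (hx₀E.div hxE).GE le_rfl
      simpa using this
    have h3 : (wG q N).GE (1 : FN N) 0 := (RVal.EQ_one (v := wG q N)).GE le_rfl
    have h4 : (wG q N).GE ((1 : FN N) ^ p) 0 := by rw [one_pow]; exact h3
    exact GT_mul_sub_mul (wG q N) (huE.GE le_rfl) h4 hu (GT_pow_sub_pow (wG q N) h2 h3 h1 p)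

end Fermat.Agent.S33
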