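import Fermat.Agent.S33.Val.Cyc
import Fermat.Agent.S55.B.Cpt

/-!
# S33/ORTH : a contracting retraction `Fx (stab H θ) → Fx H`  (constants)          key `S33/ORTH`

`q : Nat.Primes`, `H ≤ Iq q` of finite index, `θ ∈ Qb`, `H₂ = stab H θ`, `K₁ = Fx H ⊆ K₂ = Fx H₂`.
`K₁` is discretely valued (`w_of_relIndex`), `H` preserves `w = wq q` (`pres_Dq`, `Iq_le_Dq`) and `K₁`, `K₂` have the same residue field (`exists_fixed_congr`).

**Theorem `exists_retr`.**  There are `s_1..s_n ∈ H` and constants `μ_1..μ_n ∈ Qb` such that `E y := ∑ μ_i s_i(y)` satisfies: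
`E y ∈ K₁` for `y ∈ K₂`;  `∑ μ_i = 1` (so `E a = a` for `a ∈ K₁`);  `w (E y) ≥ w y` for `y ∈ K₂`.

## Proof
(0) the orbit `{θ_i = s_i θ}` of `θ` under `H` is finite (roots of `minpoly ℚ θ`), `n` elements, `s_i ∈ H`.  `stab H θ` has finite index in `Iq q`, so the value group `Γ₂` of `K₂` is
    discrete: `N₂ w y ∈ ℤ`.
(1) coordinates: `y ∈ K₂` is `∑_{j<n} c_j(y) θ^j`, `c_j(y) ∈ K₁` (`exists_coeffs_stab`, reduce the degree to `< n` by interpolation, or redo it: `s_i y = ∑_j c_j θ_i^j`, Vandermonde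
    `V = (θ_i^j)` invertible, `c_j(y) = ∑_i (V⁻¹)_{ji} s_i(y)`).  So `c_j` is of the form `∑_i m_{ji} s_i(·)`, `m_{ji} ∈ Qb`, and continuous: `w (c_j y) ≥ w y - C`.
(2) choose `x_0 = 1, x_1, …, x_{e-1} ∈ K₂ˣ` whose values represent `Γ₂/Γ₁` (finite: `Γ₂ ⊆ (1/N₂)ℤ`, `ℤ ⊆ Γ₁`).  Orthogonality: `w (∑ a_l x_l) = min (w a_l + w x_l)`, `a_l ∈ K₁` (distinct values,
    `GE_of_sum_of_distinct` in `S55/B/Res.lean`).
(3) density: for `y ∈ K₂`, `B`: there is `s ∈ S := ∑ K₁ x_l` with `w (y - s) > B`.  [`w y = w (a x_l)`; `y/(a x_l)` is a unit, `≡ a' ∈ Fx (Iq q) ⊆ K₁`; `w (y - a a' x_l) ≥ w y + 1/N₂`; induction.]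
(4) `S = K₂`: in coordinates `c : K₂ ≃ K₁^n`; if `c(S) ≠ K₁^n` there is a nonzero `K₁`-linear form `φ = ∑ φ_j c_j` vanishing on `S` (`Submodule.exists_le_ker_of_lt_top`), `φ(y₀) ≠ 0`;
    `w (φ(y₀)) = w (φ(y₀ - s)) ≥ w (y₀ - s) - C'` for all `s ∈ S`: contradiction with (3).
(5) `E (∑ a_l x_l) := a_0`; `K₁`-linear, so `E = ∑_j E(θ^j) c_j = ∑_i μ_i s_i`, `μ_i = ∑_j E(θ^j) m_{ji}`;  `w (E y) = w (a_0 x_0) ≥ w y` by (2);  `E 1 = 1`.
-/

set_option autoImplicit false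

namespace Fermat.Agent.S33

open Fermat.Agent.S05 Fermat.Agent.S55.B ExtCitation
open Fermat.Agent.S55 (Dq Iq GQ Qb)

section Abs

variable {K Ω : Type*} [Field K] [Field Ω] [Algebra K Ω]

/-- Artin: elements independent over the fixed field can be separated by `y ↦ ∑ μ_i s_i(y)` -/
theorem orth_exists_functional {H : Subgroup (Ω ≃ₐ[K] Ω)} {ι : Type*} [Fintype ι]
    (s : ι → Ω ≃ₐ[K] Ω) (X : Finset Ω) (hπ : ∀ g ∈ H, ∃ i, ∀ x ∈ X, g x = s i x)
    (hli : ∀ a : Ω → Ω, (∀ x ∈ X, a x ∈ Fx H) → ∑ x ∈ X, a x * x = 0 → ∀ x ∈ X, a x = 0)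
    (r : Ω → Ω) : ∃ μ : ι → Ω, ∀ x ∈ X, ∑ i, μ i * s i x = r x := by
  classical
  have h1 : LinearIndepOn (FixedPoints.subfield H Ω) id (X : Set Ω) := by
    rw [linearIndepOn_finset_iff]
    intro f hf x hx
    have := hli (fun x => (f x : Ω)) (fun x _ => mem_Fx.2 fun σ hσ => (f x).2 ⟨σ, hσ⟩) hf x hx
    exact Subtype.ext this
  have h2 := FixedPoints.linearIndependent_smul_of_linearIndependent H Ω h1
  choose π hπ' using fun g : H => hπ g g.2
  have h3 : LinearIndepOn Ω (fun x : Ω => fun i => s i x) (X : Set Ω) := by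
    apply LinearIndependent.of_comp (LinearMap.funLeft Ω Ω π)
    have e : (⇑(LinearMap.funLeft Ω Ω π) ∘ fun x : (X : Set Ω) => (fun (x : Ω) i => (s i) x) ↑x) =
        fun x : (X : Set Ω) => MulAction.toFun H Ω (x : Ω) := by
      funext x
      funext g
      exact (hπ' g x x.2).symm
    rw [e]
    exact h2
  have h4 : LinearIndependent Ω (fun x : X => fun i => s i (x : Ω)) := h3
  rw [linearIndependent_iff_injective_fintypeLinearCombination] at h4
  obtain ⟨G, hG⟩ := LinearMap.exists_leftInverse_of_injective _ (LinearMap.ker_eq_bot.2 h4)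
  refine ⟨fun i => ∑ x : X, r x * G (fun j => if i = j then 1 else 0) x, fun x hx => ?_⟩
  have h5 : G (fun i => s i x) = Pi.single (⟨x, hx⟩ : X) 1 := by
    have := LinearMap.congr_fun hG (Pi.single (⟨x, hx⟩ : X) 1)
    rw [LinearMap.comp_apply, LinearMap.id_apply, Fintype.linearCombination_apply_single,
      one_smul] at this
    exact this
  have h6 : G (fun i => s i x) = ∑ i, s i x • G (fun j => if i = j then 1 else 0) :=
    LinearMap.pi_apply_eq_sum_univ G _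
  calc ∑ i, (∑ x' : X, r x' * G (fun j => if i = j then 1 else 0) x') * s i x
      = ∑ x' : X, r x' * (∑ i, s i x • G (fun j => if i = j then 1 else 0)) x' := by
        simp only [Finset.sum_apply, Pi.smul_apply, smul_eq_mul, Finset.mul_sum, Finset.sum_mul]
        rw [Finset.sum_comm]
        refine Finset.sum_congr rfl fun x' _ => Finset.sum_congr rfl fun i _ => ?_
        ring
    _ = r x := by
        rw [← h6, h5, Finset.sum_eq_single (⟨x, hx⟩ : X)]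
        · simp
        · intro b _ hb
          rw [Pi.single_eq_of_ne hb, mul_zero]
        · intro h
          exact absurd (Finset.mem_univ _) h

theorem orth_sum_comm {H : Subgroup (Ω ≃ₐ[K] Ω)} {ι : Type*} [Fintype ι]
    (s : ι → Ω ≃ₐ[K] Ω) (hs : ∀ i, s i ∈ H) (X : Finset Ω) (a : Ω → Ω)
    (ha : ∀ x ∈ X, a x ∈ Fx H) (μ : ι → Ω) :
    ∑ i, μ i * s i (∑ x ∈ X, a x * x) = ∑ x ∈ X, a x * ∑ i, μ i * s i x := by
  simp only [map_sum, map_mul, Finset.mul_sum]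
  rw [Finset.sum_comm]
  refine Finset.sum_congr rfl fun x hx => Finset.sum_congr rfl fun i _ => ?_
  rw [mem_Fx.1 (ha x hx) _ (hs i)]
  ring

/-- a set of elements of `Fx H₂` whose values are pairwise incongruent modulo the values of `Fx H` -/
structure OrthGood (v : RVal Ω) (H H₂ : Subgroup (Ω ≃ₐ[K] Ω)) (X : Finset Ω) : Prop where
  one : (1 : Ω) ∈ X
  mem : ∀ x ∈ X, x ∈ Fx H₂
  ne : ∀ x ∈ X, x ≠ 0
  sep : ∀ x ∈ X, ∀ x' ∈ X, ∀ a ∈ Fx H, a ≠ 0 → v.w (a * x) = v.w x' → x = x'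

variable {v : RVal Ω} {H H₂ : Subgroup (Ω ≃ₐ[K] Ω)} {X : Finset Ω} {N : ℕ}

theorem OrthGood.card_le (h : OrthGood v H H₂ X) (hN : N ≠ 0)
    (hdisc : ∀ y ∈ Fx H₂, y ≠ 0 → ∃ k : ℤ, (N : ℝ) * v.w y = k)
    {ϖ : Ω} (hϖ : ϖ ∈ Fx H) (hϖ0 : ϖ ≠ 0) (hϖ1 : v.w ϖ = 1) : X.card ≤ N := by
  have : NeZero N := ⟨hN⟩
  have h1 : X.card ≤ (Finset.univ : Finset (ZMod N)).card := by
    apply Finset.card_le_card_of_injOn (fun x => ((⌊(N : ℝ) * v.w x⌋ : ℤ) : ZMod N))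
      (fun _ _ => Finset.mem_univ _)
    intro x hx x' hx' hxx'
    obtain ⟨k, hk⟩ := hdisc x (h.mem x hx) (h.ne x hx)
    obtain ⟨k', hk'⟩ := hdisc x' (h.mem x' hx') (h.ne x' hx')
    simp only at hxx'
    rw [hk, hk', Int.floor_intCast, Int.floor_intCast, ZMod.intCast_eq_intCast_iff_dvd_sub] at hxx'
    obtain ⟨j, hj⟩ := hxx'
    apply h.sep x hx x' hx' (ϖ ^ j) (zpow_mem hϖ j) (zpow_ne_zero j hϖ0)
    rw [v.map_mul _ _ (zpow_ne_zero j hϖ0) (h.ne x hx), RVal.w_zpow hϖ0, hϖ1, mul_one]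
    have hN' : (N : ℝ) ≠ 0 := Nat.cast_ne_zero.2 hN
    have h2 : (N : ℝ) * (j + v.w x) = N * v.w x' := by
      rw [mul_add, hk, hk']
      have := congrArg (Int.cast : ℤ → ℝ) hj
      push_cast at this
      linarith
    exact mul_left_cancel₀ hN' h2
  rwa [Finset.card_univ, ZMod.card] at h1

theorem orth_exists_good (hN : N ≠ 0)
    (hdisc : ∀ y ∈ Fx H₂, y ≠ 0 → ∃ k : ℤ, (N : ℝ) * v.w y = k)
    {ϖ : Ω} (hϖ : ϖ ∈ Fx H) (hϖ0 : ϖ ≠ 0) (hϖ1 : v.w ϖ = 1) :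
    ∃ X : Finset Ω, OrthGood v H H₂ X ∧
      ∀ y ∈ Fx H₂, y ≠ 0 → ∃ x ∈ X, ∃ a ∈ Fx H, a ≠ 0 ∧ v.w (a * x) = v.w y := by
  classical
  let P : ℕ → Prop := fun c => ∃ X : Finset Ω, OrthGood v H H₂ X ∧ X.card = c
  have h1 : P 1 := by
    refine ⟨{1}, ⟨Finset.mem_singleton_self 1, ?_, ?_, ?_⟩, Finset.card_singleton 1⟩
    · intro x hx
      rw [Finset.mem_singleton.1 hx]
      exact one_mem _
    · intro x hx
      rw [Finset.mem_singleton.1 hx]
      exact one_ne_zero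
    · intro x hx x' hx' _ _ _ _
      rw [Finset.mem_singleton.1 hx, Finset.mem_singleton.1 hx']
  have hN1 : 1 ≤ N := Nat.one_le_iff_ne_zero.2 hN
  obtain ⟨X, hX, hc⟩ : P (Nat.findGreatest P N) := Nat.findGreatest_spec hN1 h1
  refine ⟨X, hX, ?_⟩
  intro y hy hy0
  by_contra hcon
  push Not at hcon
  have hyX : y ∉ X := fun h => hcon y h 1 (one_mem _) one_ne_zero (by rw [one_mul])
  have hgood : OrthGood v H H₂ (insert y X) := by
    refine ⟨Finset.mem_insert_of_mem hX.one, ?_, ?_, ?_⟩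
    · intro x hx
      rcases Finset.mem_insert.1 hx with rfl | hx
      · exact hy
      · exact hX.mem x hx
    · intro x hx
      rcases Finset.mem_insert.1 hx with rfl | hx
      · exact hy0
      · exact hX.ne x hx
    · intro x hx x' hx' a ha ha0 hw
      rcases Finset.mem_insert.1 hx with h1 | h1
      · rcases Finset.mem_insert.1 hx' with h2 | h2
        · rw [h1, h2]
        · exfalso
          subst h1
          apply hcon x' h2 a⁻¹ (inv_mem ha) (inv_ne_zero ha0)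
          rw [v.map_mul _ _ (inv_ne_zero ha0) (hX.ne x' h2), RVal.w_inv ha0, ← hw,
            v.map_mul _ _ ha0 hy0]
          ring
      · rcases Finset.mem_insert.1 hx' with h2 | h2
        · subst h2
          exact absurd hw (hcon x h1 a ha ha0)
        · exact hX.sep x h1 x' h2 a ha ha0 hw
  have hcard : (insert y X).card = X.card + 1 := Finset.card_insert_of_notMem hyX
  have hle := hgood.card_le hN hdisc hϖ hϖ0 hϖ1
  exact Nat.findGreatest_is_greatest (P := P) (n := N) (k := X.card + 1)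
    (by rw [hc]; exact Nat.lt_succ_self _) (hcard ▸ hle) ⟨_, hgood, hcard⟩

theorem OrthGood.GE_term (h : OrthGood v H H₂ X) (a : Ω → Ω) (ha : ∀ x ∈ X, a x ∈ Fx H) {t : ℝ}
    (hs : v.GE (∑ x ∈ X, a x * x) t) : ∀ x ∈ X, v.GE (a x * x) t := by
  apply GE_of_sum_of_distinct v X (fun x => a x * x) _ hs
  intro x hx x' hx' h0 h0' hw
  have ha0 : a x ≠ 0 := left_ne_zero_of_mul h0
  have ha0' : a x' ≠ 0 := left_ne_zero_of_mul h0'
  apply h.sep x hx x' hx' (a x / a x') (div_mem (ha x hx) (ha x' hx')) (div_ne_zero ha0 ha0')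
  rw [v.map_mul _ _ (div_ne_zero ha0 ha0') (h.ne x hx), RVal.w_div ha0 ha0']
  rw [v.map_mul _ _ ha0 (h.ne x hx), v.map_mul _ _ ha0' (h.ne x' hx')] at hw
  linarith

theorem OrthGood.indep (h : OrthGood v H H₂ X) (a : Ω → Ω) (ha : ∀ x ∈ X, a x ∈ Fx H)
    (hs : ∑ x ∈ X, a x * x = 0) : ∀ x ∈ X, a x = 0 := by
  intro x hx
  by_contra h0
  have h1 : a x * x ≠ 0 := mul_ne_zero h0 (h.ne x hx)
  have h2 := h.GE_term a ha (t := v.w (a x * x) + 1) (by rw [hs]; exact RVal.GE_zero _) x hx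
  have := h2.le_w h1
  linarith

theorem orth_step (hle : H₂ ≤ H) (hN : N ≠ 0)
    (hdisc : ∀ y ∈ Fx H₂, y ≠ 0 → ∃ k : ℤ, (N : ℝ) * v.w y = k)
    (hres : ∀ u ∈ Fx H₂, v.GE u 0 → ∃ a' ∈ Fx H, v.GT (u - a') 0)
    (hX : OrthGood v H H₂ X)
    (hc : ∀ y ∈ Fx H₂, y ≠ 0 → ∃ x ∈ X, ∃ a ∈ Fx H, a ≠ 0 ∧ v.w (a * x) = v.w y)
    {y : Ω} (hy : y ∈ Fx H₂) (m : ℤ) (hm : v.GE y (m / N)) :
    ∃ a : Ω → Ω, (∀ x ∈ X, a x ∈ Fx H) ∧ v.GE (y - ∑ x ∈ X, a x * x) ((m + 1) / N) := by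
  classical
  have hNpos : (0 : ℝ) < N := Nat.cast_pos.2 (Nat.pos_of_ne_zero hN)
  by_cases hy0 : y = 0
  · refine ⟨fun _ => 0, fun _ _ => zero_mem _, ?_⟩
    simp only [zero_mul, Finset.sum_const_zero, sub_zero, hy0]
    exact RVal.GE_zero _
  obtain ⟨x₀, hx₀, a₀, ha₀, ha₀0, hw⟩ := hc y hy hy0
  have hx₀0 := hX.ne x₀ hx₀
  have hax : a₀ * x₀ ≠ 0 := mul_ne_zero ha₀0 hx₀0
  have haxmem : a₀ * x₀ ∈ Fx H₂ := mul_mem (Fx_mono hle ha₀) (hX.mem x₀ hx₀)
  have hu : v.GE (y / (a₀ * x₀)) 0 := Or.inr (by rw [RVal.w_div hy0 hax, hw, sub_self])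
  obtain ⟨a', ha', hgt⟩ := hres _ (div_mem hy haxmem) hu
  refine ⟨fun x => if x = x₀ then a₀ * a' else 0, fun x _ => ?_, ?_⟩
  · by_cases hx : x = x₀
    · simp only [hx, if_true]
      exact mul_mem ha₀ ha'
    · simp only [hx, if_false]
      exact zero_mem _
  · have e1 : ∑ x ∈ X, (if x = x₀ then a₀ * a' else 0) * x = a₀ * a' * x₀ := by
      rw [Finset.sum_eq_single x₀]
      · rw [if_pos rfl]
      · intro b _ hb
        rw [if_neg hb, zero_mul]
      · intro h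
        exact absurd hx₀ h
    rw [e1]
    have e2 : y - a₀ * a' * x₀ = a₀ * x₀ * (y / (a₀ * x₀) - a') := by
      field_simp
    have hz : v.GT (y - a₀ * a' * x₀) (v.w y) := by
      rw [e2]
      have := ((RVal.EQ_self (v := v) hax).GE le_rfl).mul_GT hgt
      rwa [hw, add_zero] at this
    have hzmem : y - a₀ * a' * x₀ ∈ Fx H₂ :=
      sub_mem hy (mul_mem (mul_mem (Fx_mono hle ha₀) (Fx_mono hle ha')) (hX.mem x₀ hx₀))
    by_cases hz0 : y - a₀ * a' * x₀ = 0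
    · exact Or.inl hz0
    · refine Or.inr ?_
      obtain ⟨k, hk⟩ := hdisc _ hzmem hz0
      obtain ⟨k', hk'⟩ := hdisc y hy hy0
      have h1 := hz.lt_w hz0
      have h2 := hm.le_w hy0
      have h3 : (m : ℝ) ≤ k' := by
        rw [← hk']
        rw [div_le_iff₀ hNpos] at h2
        linarith
      have h4 : (k' : ℝ) < k := by
        rw [← hk, ← hk']
        exact mul_lt_mul_of_pos_left h1 hNpos
      have h5 : m + 1 ≤ k := by
        have h3' : m ≤ k' := by exact_mod_cast h3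
        have h4' : k' < k := by exact_mod_cast h4
        omega
      rw [div_le_iff₀ hNpos, mul_comm, hk]
      exact_mod_cast h5

theorem orth_dense (hle : H₂ ≤ H) (hN : N ≠ 0)
    (hdisc : ∀ y ∈ Fx H₂, y ≠ 0 → ∃ k : ℤ, (N : ℝ) * v.w y = k)
    (hres : ∀ u ∈ Fx H₂, v.GE u 0 → ∃ a' ∈ Fx H, v.GT (u - a') 0)
    (hX : OrthGood v H H₂ X)
    (hc : ∀ y ∈ Fx H₂, y ≠ 0 → ∃ x ∈ X, ∃ a ∈ Fx H, a ≠ 0 ∧ v.w (a * x) = v.w y)
    {y : Ω} (hy : y ∈ Fx H₂) (B : ℝ) :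
    ∃ a : Ω → Ω, (∀ x ∈ X, a x ∈ Fx H) ∧ v.GE (y - ∑ x ∈ X, a x * x) B := by
  have hNpos : (0 : ℝ) < N := Nat.cast_pos.2 (Nat.pos_of_ne_zero hN)
  obtain ⟨m₀, hm₀⟩ : ∃ m₀ : ℤ, v.GE y (m₀ / N) := by
    refine ⟨⌊(N : ℝ) * v.w y⌋, Or.inr ?_⟩
    rw [div_le_iff₀ hNpos, mul_comm]
    exact Int.floor_le _
  have key : ∀ k : ℕ, ∃ a : Ω → Ω, (∀ x ∈ X, a x ∈ Fx H) ∧
      v.GE (y - ∑ x ∈ X, a x * x) (((m₀ + k : ℤ) : ℝ) / N) := by
    intro k
    induction k with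
    | zero =>
      refine ⟨fun _ => 0, fun _ _ => zero_mem _, ?_⟩
      simpa using hm₀
    | succ k ih =>
      obtain ⟨a, ha, hk⟩ := ih
      have hmem : y - ∑ x ∈ X, a x * x ∈ Fx H₂ :=
        sub_mem hy (sum_mem fun x hx => mul_mem (Fx_mono hle (ha x hx)) (hX.mem x hx))
      obtain ⟨a', ha', hk'⟩ := orth_step hle hN hdisc hres hX hc hmem (m₀ + k) hk
      refine ⟨fun x => a x + a' x, fun x hx => add_mem (ha x hx) (ha' x hx), ?_⟩
      have e : y - ∑ x ∈ X, (a x + a' x) * x =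
          y - ∑ x ∈ X, a x * x - ∑ x ∈ X, a' x * x := by
        simp only [add_mul, Finset.sum_add_distrib]
        ring
      rw [e]
      convert hk' using 2
      push_cast
      ring
  obtain ⟨a, ha, hk⟩ := key ⌈(N : ℝ) * B - m₀⌉₊
  refine ⟨a, ha, hk.mono ?_⟩
  rw [le_div_iff₀ hNpos]
  have := Nat.le_ceil ((N : ℝ) * B - m₀)
  push_cast
  linarith

theorem orth_span (hle : H₂ ≤ H) (hN : N ≠ 0) (hP : Pres v H)
    (hdisc : ∀ y ∈ Fx H₂, y ≠ 0 → ∃ k : ℤ, (N : ℝ) * v.w y = k)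
    (hres : ∀ u ∈ Fx H₂, v.GE u 0 → ∃ a' ∈ Fx H, v.GT (u - a') 0)
    (hX : OrthGood v H H₂ X)
    (hc : ∀ y ∈ Fx H₂, y ≠ 0 → ∃ x ∈ X, ∃ a ∈ Fx H, a ≠ 0 ∧ v.w (a * x) = v.w y)
    {ι : Type*} [Fintype ι] (s : ι → Ω ≃ₐ[K] Ω) (hs : ∀ i, s i ∈ H)
    (hπ : ∀ g ∈ H, ∃ i, ∀ y ∈ Fx H₂, g y = s i y)
    {y : Ω} (hy : y ∈ Fx H₂) :
    ∃ a : Ω → Ω, (∀ x ∈ X, a x ∈ Fx H) ∧ y = ∑ x ∈ X, a x * x := by
  classical
  by_contra hcon
  push Not at hcon
  have hyX : y ∉ X := by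
    intro h
    apply hcon (fun x => if x = y then 1 else 0)
    · intro x _
      by_cases hx : x = y
      · simp only [hx, if_true]
        exact one_mem _
      · simp only [hx, if_false]
        exact zero_mem _
    · rw [Finset.sum_eq_single y]
      · rw [if_pos rfl, one_mul]
      · intro b _ hb
        rw [if_neg hb, zero_mul]
      · intro h'
        exact absurd h h'
  have hli : ∀ a : Ω → Ω, (∀ x ∈ insert y X, a x ∈ Fx H) → ∑ x ∈ insert y X, a x * x = 0 →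
      ∀ x ∈ insert y X, a x = 0 := by
    intro a ha hsum
    rw [Finset.sum_insert hyX] at hsum
    have hb : a y = 0 := by
      by_contra hb
      apply hcon (fun x => -(a x) / a y)
      · intro x hx
        exact div_mem (neg_mem (ha x (Finset.mem_insert_of_mem hx)))
          (ha y (Finset.mem_insert_self y X))
      · apply mul_left_cancel₀ hb
        rw [Finset.mul_sum]
        have : ∀ x ∈ X, a y * (-(a x) / a y * x) = -(a x * x) := by
          intro x _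
          field_simp
        rw [Finset.sum_congr rfl this, Finset.sum_neg_distrib]
        linear_combination hsum
    intro x hx
    rcases Finset.mem_insert.1 hx with rfl | hx
    · exact hb
    · refine hX.indep a (fun x hx => ha x (Finset.mem_insert_of_mem hx)) ?_ x hx
      rwa [hb, zero_mul, zero_add] at hsum
  have hmem : ∀ x ∈ insert y X, x ∈ Fx H₂ := by
    intro x hx
    rcases Finset.mem_insert.1 hx with rfl | hx
    · exact hy
    · exact hX.mem x hx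
  obtain ⟨ν, hν⟩ := orth_exists_functional (H := H) s (insert y X)
    (fun g hg => by
      obtain ⟨i, hi⟩ := hπ g hg
      exact ⟨i, fun x hx => hi x (hmem x hx)⟩) hli (fun x => if x = y then 1 else 0)
  set B : ℝ := ∑ i, |v.w (ν i)| with hB
  have hBi : ∀ i, v.GE (ν i) (-B) := by
    intro i
    refine Or.inr ?_
    have h1 : |v.w (ν i)| ≤ B :=
      Finset.single_le_sum (f := fun i => |v.w (ν i)|) (fun _ _ => abs_nonneg _) (Finset.mem_univ i)
    have h2 := neg_abs_le (v.w (ν i))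
    linarith
  obtain ⟨a, ha, hz⟩ := orth_dense hle hN hdisc hres hX hc hy (B + 1)
  have h1 : ∑ i, ν i * s i (y - ∑ x ∈ X, a x * x) = 1 := by
    simp only [map_sub, mul_sub, Finset.sum_sub_distrib]
    rw [hν y (Finset.mem_insert_self y X), if_pos rfl, orth_sum_comm s hs X a ha ν,
      Finset.sum_eq_zero, sub_zero]
    intro x hx
    rw [hν x (Finset.mem_insert_of_mem hx), if_neg (fun h : x = y => hyX (h ▸ hx)), mul_zero]
  have h2 : v.GE (∑ i, ν i * s i (y - ∑ x ∈ X, a x * x)) 1 := by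
    refine GE_sum v _ _ _ fun i _ => ?_
    exact ((hBi i).mul (hP.GE (hs i) hz)).mono (by linarith)
  rw [h1] at h2
  have := h2.le_w one_ne_zero
  rw [RVal.w_one] at this
  linarith

/-- the abstract form of `exists_retr` -/
theorem orth_main (hle : H₂ ≤ H) (hN : N ≠ 0) (hP : Pres v H)
    (hdisc : ∀ y ∈ Fx H₂, y ≠ 0 → ∃ k : ℤ, (N : ℝ) * v.w y = k)
    (hres : ∀ u ∈ Fx H₂, v.GE u 0 → ∃ a' ∈ Fx H, v.GT (u - a') 0)
    {ϖ : Ω} (hϖ : ϖ ∈ Fx H) (hϖ0 : ϖ ≠ 0) (hϖ1 : v.w ϖ = 1)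
    {ι : Type*} [Fintype ι] (s : ι → Ω ≃ₐ[K] Ω) (hs : ∀ i, s i ∈ H)
    (hπ : ∀ g ∈ H, ∃ i, ∀ y ∈ Fx H₂, g y = s i y) :
    ∃ μ : ι → Ω, (∀ y ∈ Fx H₂, ∑ i, μ i * s i y ∈ Fx H) ∧ ∑ i, μ i = 1 ∧
      ∀ y ∈ Fx H₂, ∀ t : ℝ, v.GE y t → v.GE (∑ i, μ i * s i y) t := by
  classical
  obtain ⟨X, hX, hc⟩ := orth_exists_good (v := v) (H := H) (H₂ := H₂) hN hdisc hϖ hϖ0 hϖ1
  obtain ⟨μ, hμ⟩ := orth_exists_functional (H := H) s X
    (fun g hg => by
      obtain ⟨i, hi⟩ := hπ g hg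
      exact ⟨i, fun x hx => hi x (hX.mem x hx)⟩) hX.indep (fun x => if x = 1 then 1 else 0)
  have key : ∀ a : Ω → Ω, (∀ x ∈ X, a x ∈ Fx H) →
      ∑ i, μ i * s i (∑ x ∈ X, a x * x) = a 1 := by
    intro a ha
    rw [orth_sum_comm s hs X a ha μ, Finset.sum_eq_single 1]
    · rw [hμ 1 hX.one, if_pos rfl, mul_one]
    · intro b hb hb1
      rw [hμ b hb, if_neg hb1, mul_zero]
    · intro h
      exact absurd hX.one h
  refine ⟨μ, fun y hy => ?_, ?_, fun y hy t ht => ?_⟩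
  · obtain ⟨a, ha, rfl⟩ := orth_span hle hN hP hdisc hres hX hc s hs hπ hy
    rw [key a ha]
    exact ha 1 hX.one
  · have := hμ 1 hX.one
    simpa using this
  · obtain ⟨a, ha, rfl⟩ := orth_span hle hN hP hdisc hres hX hc s hs hπ hy
    rw [key a ha]
    have := hX.GE_term a ha ht 1 hX.one
    rwa [mul_one] at this

end Abs

/-- a contracting retraction `Fx H₂ → Fx H` of the form `y ↦ ∑ μ_i s_i(y)` -/
structure Retr (q : Nat.Primes) (H H₂ : Subgroup GQ) where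
  n : ℕ
  s : Fin n → GQ
  μ : Fin n → Qb
  mem : ∀ i, s i ∈ H
  fix : ∀ y ∈ Fx H₂, ∑ i, μ i * s i y ∈ Fx H
  one : ∑ i, μ i = 1
  contr : ∀ y ∈ Fx H₂, ∀ t : ℝ, (wq q).GE y t → (wq q).GE (∑ i, μ i * s i y) t

theorem orth_relIndex_stab (H : Subgroup GQ) (θ : Qb) : (stab H θ).relIndex H ≠ 0 := by
  have hz : IsIntegral ℚ θ := (AlgebraicClosure.isAlgebraic ℚ).isAlgebraic θ |>.isIntegral
  have hfd : FiniteDimensional ℚ (IntermediateField.adjoin ℚ {θ}) :=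
    IntermediateField.adjoin.finiteDimensional hz
  have hfi : (IntermediateField.adjoin ℚ {θ}).fixingSubgroup.FiniteIndex :=
    Fermat.Agent.S55.E.finiteIndex_fixingSubgroup _ hfd
  have h1 : (H ⊓ (IntermediateField.adjoin ℚ {θ}).fixingSubgroup).relIndex H ≠ 0 := by
    rw [Subgroup.inf_relIndex_left]
    exact (inferInstance :
      ((IntermediateField.adjoin ℚ {θ}).fixingSubgroup.subgroupOf H).FiniteIndex).index_ne_zero
  have h2 : H ⊓ (IntermediateField.adjoin ℚ {θ}).fixingSubgroup ≤ stab H θ := fun σ hσ =>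
    ⟨hσ.1, hσ.2 ⟨θ, IntermediateField.mem_adjoin_simple_self ℚ θ⟩⟩
  intro h0
  have := Subgroup.relIndex_dvd_of_le_left H h2
  rw [h0, zero_dvd_iff] at this
  exact h1 this

/-- `stab H θ` has finite index -/
theorem relIndex_stab_ne_zero (q : Nat.Primes) {H : Subgroup GQ} (hH : H ≤ Iq q)
    (hfin : H.relIndex (Iq q) ≠ 0) (θ : Qb) : (stab H θ).relIndex (Iq q) ≠ 0 := by
  rw [← Subgroup.relIndex_mul_relIndex _ _ _ (stab_le H θ) hH]
  exact mul_ne_zero (orth_relIndex_stab H θ) hfin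

/-- [S33/ORTH] -/
theorem exists_retr (q : Nat.Primes) {H : Subgroup GQ} (hH : H ≤ Iq q) (hfin : H.relIndex (Iq q) ≠ 0)
    (θ : Qb) : Nonempty (Retr q H (stab H θ)) := by
  have := finAux_finite (orth_relIndex_stab H θ)
  cases nonempty_fintype (↥H ⧸ (stab H θ).subgroupOf H)
  let s : (↥H ⧸ (stab H θ).subgroupOf H) → GQ := fun c => ((Quotient.out c : H) : GQ)
  have hπ : ∀ g ∈ H, ∃ i, ∀ y ∈ Fx (stab H θ), g y = s i y := by
    intro g hg
    refine ⟨QuotientGroup.mk (⟨g, hg⟩ : H), fun y hy => ?_⟩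
    have h1 : g y = conjOf H hy (QuotientGroup.mk (⟨g, hg⟩ : H)) := rfl
    have h2 : s (QuotientGroup.mk (⟨g, hg⟩ : H)) y =
        conjOf H hy (QuotientGroup.mk (Quotient.out (QuotientGroup.mk (⟨g, hg⟩ : H) :
          ↥H ⧸ (stab H θ).subgroupOf H))) := rfl
    rw [h1, h2, QuotientGroup.out_eq']
  have hfin2 := relIndex_stab_ne_zero q hH hfin θ
  obtain ⟨μ, h1, h2, h3⟩ := orth_main (v := wq q) (H := H) (H₂ := stab H θ)
    (N := (stab H θ).relIndex (Iq q)) (stab_le H θ) hfin2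
    ((pres_Dq q).mono (hH.trans (Iq_le_Dq q)))
    (fun y hy hy0 => w_of_relIndex q ((stab_le H θ).trans hH) hfin2 hy hy0)
    (fun u _ hu => by
      obtain ⟨a', h1, _, h3⟩ := exists_fixed_congr q hu
      exact ⟨a', mem_Fx.2 fun σ hσ => h1 σ (hH hσ), h3⟩)
    (ϖ := ((q : ℕ) : Qb)) (natCast_mem _ _) (Nat.cast_ne_zero.2 q.2.ne_zero) (wq_q q) s
    (fun c => (Quotient.out c).2) hπ
  let e := Fintype.equivFin (↥H ⧸ (stab H θ).subgroupOf H)
  exact ⟨{ n := Fintype.card (↥H ⧸ (stab H θ).subgroupOf H)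
           s := fun i => s (e.symm i)
           μ := fun i => μ (e.symm i)
           mem := fun i => (Quotient.out (e.symm i)).2
           fix := fun y hy => by
             rw [Equiv.sum_comp e.symm (fun c => μ c * s c y)]
             exact h1 y hy
           one := by
             rw [Equiv.sum_comp e.symm μ]
             exact h2
           contr := fun y hy t ht => by
             rw [Equiv.sum_comp e.symm (fun c => μ c * s c y)]
             exact h3 y hy t ht }⟩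

/-- a number field is fixed by the stabiliser of a primitive element -/
theorem exists_theta (L : IntermediateField ℚ Qb) [FiniteDimensional ℚ L] :
    ∃ θ : Qb, ∀ σ : GQ, σ θ = θ → ∀ x ∈ L, σ x = x := by
  refine ⟨((Field.powerBasisOfFiniteOfSeparable ℚ L).gen : Qb), fun σ hσ x hx => ?_⟩
  have h : ((σ : Qb →ₐ[ℚ] Qb).comp L.val) = L.val :=
    (Field.powerBasisOfFiniteOfSeparable ℚ L).algHom_ext hσ
  exact DFunLike.congr_fun h ⟨x, hx⟩

end Fermat.Agent.S33
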