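import Mathlib

/-!
# S33/RAT : Galois descent for vector spaces (Speiser), abstract            key `S33/RAT-SP`   (MATHLIB ONLY, ~200 lines)

`K` a field, `V` a `K`-vector space, `G` a group acting on `K` by ring automorphisms (`a`, given as a function with `ha1`, `ham`) and on `V` by semilinear additive automorphisms (`s`, `hs1`, `hsm`, `hs`).
`x ∈ V` is fixed by a subgroup `G'` of FINITE INDEX, and the elements of `G ∖ G'` move some element of `K^{G'}` (`hsep`).

**`speiser`** : if `U ⊆ V` is a `G`-stable `K`-subspace and `x ∈ U`, then `x` is a `K`-linear combination of `G`-fixed vectors of `U`.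
**`exists_fixed_ne_zero`** : if moreover `x ≠ 0`, then `U` contains a nonzero `G`-fixed vector.

## Proof
`K' = {c | ∀ g ∈ G', a g c = c}`.  `Q = G ⧸ G'` is finite.  For `c ∈ K'` the vector `c • x` is fixed by `G'`, so `g ↦ s g (c • x)` factors through `Q`
(`g' = g h`, `h ∈ G'`); put `T c = ∑_{γ ∈ Q} s γ (c • x) = ∑_γ (a γ c) • (s γ x)`  (use `Quotient.out`, i.e. `T c = ∑ γ : Q, s γ.out (c • x)`,
and the lemma `s (g) (c • x) = s ((g : Q).out) (c • x)`).
* `T c ∈ U` (stability), and `s g (T c) = T c`: `γ ↦ g • γ` is a permutation of `Q` (`Equiv.sum_comp (MulAction.toPerm g)`).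
* `x ∈ span {T c}`: otherwise there is a linear form `ψ : V →ₗ[K] K` vanishing on all `T c` with `ψ x ≠ 0` (`Submodule.exists_le_ker_of_notMem`
  or `Submodule.exists_dual_map_eq_bot_of_notMem`; `V` is a vector space).  Then `∑_γ ψ (s γ.out x) * a γ.out c = 0` for all `c ∈ K'`.
  The monoid homs `χ_γ : K' → K`, `c ↦ a γ.out c` (`K'` as a `Subfield`/submonoid of `K`) are pairwise distinct by `hsep`
  (`χ_γ = χ_δ ⟹ δ.out⁻¹ γ.out` fixes `K'` pointwise `⟹ ∈ G' ⟹ γ = δ`), hence linearly independent over `K`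
  (Dedekind: `linearIndependent_monoidHom`), so `ψ (s γ.out x) = 0` for all `γ`; for `γ = (1 : G)` : `s γ.out x = x` because `γ.out ∈ G'`.  Contradiction.
* `exists_fixed_ne_zero`: if all fixed vectors of `U` were `0`, the span would be `0`.
-/

set_option autoImplicit false

namespace Fermat.Agent.S33.Rat

variable {K V G : Type*} [Field K] [AddCommGroup V] [Module K V] [Group G]

/-- [S33/RAT-SP] -/
theorem speiser (a : G → K →+* K) (ha1 : ∀ c, a 1 c = c) (ham : ∀ g h c, a (g * h) c = a g (a h c))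
    (s : G → V →+ V) (hs1 : ∀ x, s 1 x = x) (hsm : ∀ g h x, s (g * h) x = s g (s h x))
    (hs : ∀ (g : G) (c : K) (x : V), s g (c • x) = a g c • s g x)
    (U : Submodule K V) (hU : ∀ g : G, ∀ x ∈ U, s g x ∈ U)
    (G' : Subgroup G) (hfin : G'.index ≠ 0)
    (hsep : ∀ g : G, g ∉ G' → ∃ c : K, (∀ h ∈ G', a h c = c) ∧ a g c ≠ c)
    (x : V) (hx : x ∈ U) (hx' : ∀ h ∈ G', s h x = x) :
    x ∈ Submodule.span K {y : V | y ∈ U ∧ ∀ g : G, s g y = y} := by
  classical
  have hFI : G'.FiniteIndex := ⟨hfin⟩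
  have hfinQ : Finite (G ⧸ G') := inferInstance
  have : Fintype (G ⧸ G') := Fintype.ofFinite _
  let K' : Submonoid K :=
    { carrier := {c | ∀ h ∈ G', a h c = c}
      one_mem' := fun h _ => map_one _
      mul_mem' := fun {c c'} hc hc' h hh => by rw [map_mul, hc h hh, hc' h hh] }
  -- `g ↦ s g (c • x)` factors through the quotient
  have hfac : ∀ (c : K') (g : G), s ((g : G ⧸ G').out) ((c : K) • x) = s g ((c : K) • x) := by
    intro c g
    obtain ⟨h, hh⟩ := QuotientGroup.mk_out_eq_mul G' g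
    rw [hh, hsm, hs, c.2 h h.2, hx' h h.2]
  let T : K' → V := fun c => ∑ γ : G ⧸ G', s γ.out ((c : K) • x)
  have hTU : ∀ c, T c ∈ U := fun c =>
    U.sum_mem fun γ _ => hU _ _ (U.smul_mem _ hx)
  have hTfix : ∀ c g, s g (T c) = T c := by
    intro c g
    show s g (∑ γ : G ⧸ G', s γ.out ((c : K) • x)) = _
    rw [map_sum]
    have h1 : ∀ γ : G ⧸ G', s g (s γ.out ((c : K) • x)) =
        (fun δ : G ⧸ G' => s δ.out ((c : K) • x)) (MulAction.toPerm g γ) := by
      intro γ
      rw [← hsm, ← hfac c (g * γ.out)]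
      have : ((g * γ.out : G) : G ⧸ G') = MulAction.toPerm g γ := by
        rw [MulAction.toPerm_apply]
        conv_rhs => rw [← QuotientGroup.out_eq' γ]
        rfl
      rw [this]
    rw [Finset.sum_congr rfl fun γ _ => h1 γ]
    exact Equiv.sum_comp (MulAction.toPerm g) (fun δ : G ⧸ G' => s δ.out ((c : K) • x))
  have hle : Submodule.span K (Set.range T) ≤
      Submodule.span K {y : V | y ∈ U ∧ ∀ g : G, s g y = y} := by
    apply Submodule.span_mono
    rintro _ ⟨c, rfl⟩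
    exact ⟨hTU c, hTfix c⟩
  apply hle
  by_contra hxn
  obtain ⟨ψ, hψx, hψ⟩ := Submodule.exists_le_ker_of_notMem hxn
  let χ : G ⧸ G' → (K' →* K) := fun γ => ((a γ.out : K →+* K) : K →* K).comp K'.subtype
  have hχ : ∀ γ (c : K'), χ γ c = a γ.out (c : K) := fun γ c => rfl
  have hinj : Function.Injective χ := by
    intro γ δ hγδ
    have h1 : δ.out⁻¹ * γ.out ∈ G' := by
      by_contra hn
      obtain ⟨c, hc, hne⟩ := hsep _ hn
      apply hne
      have h2 : a γ.out c = a δ.out c := DFunLike.congr_fun hγδ (⟨c, hc⟩ : K')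
      rw [ham, h2, ← ham, inv_mul_cancel, ha1]
    have h3 : ((δ.out : G) : G ⧸ G') = ((γ.out : G) : G ⧸ G') := QuotientGroup.eq.mpr h1
    rw [QuotientGroup.out_eq', QuotientGroup.out_eq'] at h3
    exact h3.symm
  have hli : LinearIndependent K (fun γ : G ⧸ G' => (χ γ : K' → K)) :=
    (linearIndependent_monoidHom K' K).comp χ hinj
  have hsum : ∑ γ : G ⧸ G', ψ (s γ.out x) • (χ γ : K' → K) = 0 := by
    funext c
    have h1 : ψ (T c) = 0 := hψ (Submodule.subset_span ⟨c, rfl⟩)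
    rw [Finset.sum_apply, Pi.zero_apply, ← h1]
    show _ = ψ (∑ γ : G ⧸ G', s γ.out ((c : K) • x))
    rw [map_sum]
    refine Finset.sum_congr rfl fun γ _ => ?_
    rw [Pi.smul_apply, hχ, hs, map_smul, smul_eq_mul, smul_eq_mul, mul_comm]
  have h0 := Fintype.linearIndependent_iff.mp hli _ hsum ((1 : G) : G ⧸ G')
  apply hψx
  have h1 := hfac 1 1
  simp only [OneMemClass.coe_one, one_smul, hs1] at h1
  rw [← h1]
  exact h0

/-- [S33/RAT-SP] -/
theorem exists_fixed_ne_zero (a : G → K →+* K) (ha1 : ∀ c, a 1 c = c) (ham : ∀ g h c, a (g * h) c = a g (a h c))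
    (s : G → V →+ V) (hs1 : ∀ x, s 1 x = x) (hsm : ∀ g h x, s (g * h) x = s g (s h x))
    (hs : ∀ (g : G) (c : K) (x : V), s g (c • x) = a g c • s g x)
    (U : Submodule K V) (hU : ∀ g : G, ∀ x ∈ U, s g x ∈ U)
    (G' : Subgroup G) (hfin : G'.index ≠ 0)
    (hsep : ∀ g : G, g ∉ G' → ∃ c : K, (∀ h ∈ G', a h c = c) ∧ a g c ≠ c)
    (x : V) (hx : x ∈ U) (hx' : ∀ h ∈ G', s h x = x) (hx0 : x ≠ 0) :
    ∃ y ∈ U, y ≠ 0 ∧ ∀ g : G, s g y = y := by
  by_contra hcon
  push Not at hcon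
  have h := speiser a ha1 ham s hs1 hsm hs U hU G' hfin hsep x hx hx'
  have h0 : Submodule.span K {y : V | y ∈ U ∧ ∀ g : G, s g y = y} ≤ ⊥ := by
    rw [Submodule.span_le]
    rintro y ⟨hyU, hy⟩
    by_contra hy0
    obtain ⟨g, hg⟩ := hcon y hyU hy0
    exact hg (hy g)
  exact hx0 (by simpa using h0 h)

end Fermat.Agent.S33.Rat
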